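/-
GATE-J / J1, brick (P1) (helper90): Gauss lattices.

`K` a field with a valuation `v` (arbitrary value group), `V` a finite-dimensional `K`-space with a
family of "coefficient" functionals `φ i : V →ₗ[K] K` such that every nonzero vector attains its
Gauss norm `sup_i v (φ i x)` (and the norm is nonzero).  Then Gaussian elimination produces a basis
`e` of `V` and indices `idx` with

* `v (φ j (e a)) ≤ 1` for all `j`, `v (φ (idx a) (e a)) = 1`,
* `φ (idx a) (e b) = 0` for `a < b` (triangularity),

which is an orthonormal basis for the Gauss norm: `‖∑ c a • e a‖ = max_a v (c a)`.  Consequently the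
unit ball is the free module spanned by `e` over the valuation ring and reduction modulo the
maximal ideal is injective on it.  Mathlib only.
-/
import Mathlib

set_option autoImplicit false

open Module

namespace Fermat.Agent.GJ.GaussLattice

variable {K : Type*} [Field K] {Γ₀ : Type*} [LinearOrderedCommGroupWithZero Γ₀]
  (v : Valuation K Γ₀)

section defs

variable {V : Type*} [AddCommGroup V] [Module K V] {ι : Type*} (φ : ι → V →ₗ[K] K)

/-- Every nonzero vector attains its Gauss norm `sup_j v (φ j x)`, and this norm is nonzero. -/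
def NormAttained : Prop :=
  ∀ x : V, x ≠ 0 → ∃ i, φ i x ≠ 0 ∧ ∀ j, v (φ j x) ≤ v (φ i x)

/-- A triangular family of vectors of Gauss norm one. -/
def IsGaussFamily {n : ℕ} (e : Fin n → V) (idx : Fin n → ι) : Prop :=
  (∀ a j, v (φ j (e a)) ≤ 1) ∧ (∀ a, v (φ (idx a) (e a)) = 1) ∧
    ∀ a b, a < b → φ (idx a) (e b) = 0

end defs

section existence

/-- Gaussian elimination: existence of a triangular norm-one spanning independent family. -/
theorem exists_gaussFamily_aux (n : ℕ) : ∀ {V : Type*} [AddCommGroup V] [Module K V]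
    [FiniteDimensional K V] {ι : Type*} (φ : ι → V →ₗ[K] K), NormAttained v φ →
    finrank K V = n →
    ∃ (e : Fin n → V) (idx : Fin n → ι), LinearIndependent K e ∧
      Submodule.span K (Set.range e) = ⊤ ∧ IsGaussFamily v φ e idx := by
  induction n with
  | zero =>
    intro V _ _ _ ι φ _ hn
    refine ⟨Fin.elim0, Fin.elim0, linearIndependent_empty_type, ?_, ?_, ?_, ?_⟩
    · have : Subsingleton V := Module.finrank_zero_iff.mp hn
      exact Subsingleton.elim _ _
    · exact fun a => a.elim0
    · exact fun a => a.elim0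
    · exact fun a => a.elim0
  | succ n ih =>
    intro V _ _ _ ι φ h hn
    -- a nonzero vector, normalised
    have hpos : 0 < finrank K V := by omega
    obtain ⟨x, hx⟩ := Module.finrank_pos_iff_exists_ne_zero.mp hpos
    obtain ⟨i₁, hi₁, hmax⟩ := h x hx
    set x₁ : V := (φ i₁ x)⁻¹ • x with hx₁
    have hφx₁ : φ i₁ x₁ = 1 := by
      rw [hx₁, map_smul, smul_eq_mul, inv_mul_cancel₀ hi₁]
    have hle₁ : ∀ j, v (φ j x₁) ≤ 1 := by
      intro j
      rw [hx₁, map_smul, smul_eq_mul, map_mul, map_inv₀]
      have hne : v (φ i₁ x) ≠ 0 := (Valuation.ne_zero_iff v).mpr hi₁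
      calc (v (φ i₁ x))⁻¹ * v (φ j x) ≤ (v (φ i₁ x))⁻¹ * v (φ i₁ x) :=
            mul_le_mul' le_rfl (hmax j)
        _ = 1 := inv_mul_cancel₀ hne
    -- the hyperplane
    set V' : Submodule K V := LinearMap.ker (φ i₁) with hV'
    have hφne : φ i₁ ≠ 0 := fun h0 => hi₁ (by rw [h0]; rfl)
    have hfin' : finrank K V' = n := by
      have := Module.Dual.finrank_ker_add_one_of_ne_zero hφne
      rw [← hV'] at this
      omega
    have h' : NormAttained v (fun j => (φ j).comp V'.subtype) := by
      intro y hy
      have hy' : (y : V) ≠ 0 := fun h0 => hy (Subtype.ext h0)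
      exact h (y : V) hy'
    obtain ⟨e', idx', hli', hspan', hle', heq', htri'⟩ :=
      ih (fun j => (φ j).comp V'.subtype) h' hfin'
    refine ⟨Fin.cons x₁ (fun a => (e' a : V)), Fin.cons i₁ idx', ?_, ?_, ?_, ?_, ?_⟩
    · -- linear independence
      have hli : LinearIndependent K (fun a => (e' a : V)) :=
        hli'.map' V'.subtype (Submodule.ker_subtype V')
      refine hli.finCons ?_
      intro hmem
      have hsub : Submodule.span K (Set.range fun a => (e' a : V)) ≤ V' := by
        rw [Submodule.span_le]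
        rintro _ ⟨a, rfl⟩
        exact (e' a).2
      have : x₁ ∈ V' := hsub hmem
      rw [hV', LinearMap.mem_ker, hφx₁] at this
      exact one_ne_zero this
    · -- spanning
      rw [Submodule.eq_top_iff']
      intro y
      have hdecomp : y = (φ i₁ y) • x₁ + (y - (φ i₁ y) • x₁) := by abel
      have hker : y - (φ i₁ y) • x₁ ∈ V' := by
        rw [hV', LinearMap.mem_ker, map_sub, map_smul, hφx₁, smul_eq_mul, mul_one, sub_self]
      rw [hdecomp]
      refine Submodule.add_mem _ (Submodule.smul_mem _ _ (Submodule.subset_span ⟨0, ?_⟩)) ?_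
      · simp
      · -- the kernel part lies in the span of the `e'`
        have hmem' : (⟨_, hker⟩ : V') ∈ Submodule.span K (Set.range e') := by
          rw [hspan']; trivial
        have hmap := Submodule.apply_mem_span_image_of_mem_span V'.subtype hmem'
        have himg : (V'.subtype '' Set.range e') ⊆
            Set.range (Fin.cons x₁ (fun a => (e' a : V)) : Fin (n + 1) → V) := by
          rintro _ ⟨_, ⟨a, rfl⟩, rfl⟩
          exact ⟨a.succ, by simp⟩
        exact Submodule.span_mono himg hmap
    · -- norm ≤ 1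
      intro a j
      refine Fin.cases ?_ (fun a' => ?_) a
      · simpa using hle₁ j
      · simpa using hle' a' j
    · -- norm = 1 at idx
      intro a
      refine Fin.cases ?_ (fun a' => ?_) a
      · simp [hφx₁]
      · simpa using heq' a'
    · -- triangular
      intro a b
      refine Fin.cases ?_ (fun b' => ?_) b
      · intro hab
        exact absurd hab (Fin.not_lt_zero a)
      · refine Fin.cases ?_ (fun a' => ?_) a
        · intro _
          have hmemk : (e' b' : V) ∈ LinearMap.ker (φ i₁) := (e' b').2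
          rw [LinearMap.mem_ker] at hmemk
          simp [hmemk]
        · intro hab'
          have hlt : a' < b' := by simpa using hab'
          simpa using htri' a' b' hlt

variable {V : Type*} [AddCommGroup V] [Module K V] {ι : Type*} (φ : ι → V →ₗ[K] K)

/-- **Existence of a Gauss (orthonormal, triangular) basis.** -/
theorem exists_gaussBasis [FiniteDimensional K V] (h : NormAttained v φ) :
    ∃ (b : Basis (Fin (finrank K V)) K V) (idx : Fin (finrank K V) → ι),
      IsGaussFamily v φ b idx := by
  obtain ⟨e, idx, hli, hspan, hG⟩ := exists_gaussFamily_aux v (finrank K V) φ h rfl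
  refine ⟨Basis.mk hli (le_of_eq hspan.symm), idx, ?_⟩
  rwa [Basis.coe_mk]

end existence

section orthonormal

variable {v}
variable {V : Type*} [AddCommGroup V] [Module K V] {ι : Type*} {φ : ι → V →ₗ[K] K}
  {n : ℕ} {e : Fin n → V} {idx : Fin n → ι}

/-- Upper bound: the Gauss norm of `∑ c a • e a` is at most `max v (c a)`. -/
theorem IsGaussFamily.apply_sum_le (hG : IsGaussFamily v φ e idx) (c : Fin n → K) {μ : Γ₀}
    (hc : ∀ a, v (c a) ≤ μ) (j : ι) : v (φ j (∑ a, c a • e a)) ≤ μ := by
  rw [map_sum]
  apply Valuation.map_sum_le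
  intro a _
  rw [map_smul, smul_eq_mul, map_mul]
  calc v (c a) * v (φ j (e a)) ≤ μ * 1 := mul_le_mul' (hc a) (hG.1 a j)
    _ = μ := mul_one μ

/-- Strict upper bound. -/
theorem IsGaussFamily.apply_sum_lt (hG : IsGaussFamily v φ e idx) (c : Fin n → K) {μ : Γ₀}
    (hμ : μ ≠ 0) (hc : ∀ a, v (c a) < μ) (j : ι) : v (φ j (∑ a, c a • e a)) < μ := by
  rw [map_sum]
  apply Valuation.map_sum_lt v hμ
  intro a _
  rw [map_smul, smul_eq_mul, map_mul]
  calc v (c a) * v (φ j (e a)) ≤ v (c a) * 1 := mul_le_mul' le_rfl (hG.1 a j)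
    _ = v (c a) := mul_one _
    _ < μ := hc a

/-- The norm is attained at `idx a` when `a` is the first index where `v (c ·)` is maximal. -/
theorem IsGaussFamily.apply_sum_eq (hG : IsGaussFamily v φ e idx) (c : Fin n → K) (a : Fin n)
    (hmax : ∀ b, v (c b) ≤ v (c a)) (hfirst : ∀ b, b < a → v (c b) < v (c a)) :
    v (φ (idx a) (∑ b, c b • e b)) = v (c a) := by
  rw [map_sum, ← Finset.add_sum_erase Finset.univ _ (Finset.mem_univ a)]
  have hmain : v (φ (idx a) (c a • e a)) = v (c a) := by
    rw [map_smul, smul_eq_mul, map_mul, hG.2.1 a, mul_one]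
  by_cases h0 : v (c a) = 0
  · have hall : ∀ b, c b = 0 := fun b => by
      have h1 := hmax b
      rw [h0] at h1
      exact (Valuation.zero_iff v).mp (le_antisymm h1 zero_le)
    simp [hall]
  · have hrest : v (∑ b ∈ Finset.univ.erase a, φ (idx a) (c b • e b)) < v (c a) := by
      apply Valuation.map_sum_lt v h0
      intro b hb
      have hba : b ≠ a := Finset.ne_of_mem_erase hb
      rcases lt_or_gt_of_ne hba with hlt | hgt
      · rw [map_smul, smul_eq_mul, map_mul]
        calc v (c b) * v (φ (idx a) (e b)) ≤ v (c b) * 1 := mul_le_mul' le_rfl (hG.1 b _)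
          _ = v (c b) := mul_one _
          _ < v (c a) := hfirst b hlt
      · rw [map_smul, hG.2.2 a b hgt, smul_zero, map_zero]
        exact zero_lt_iff.mpr h0
    rw [Valuation.map_add_eq_of_lt_left v (by rwa [hmain]), hmain]

/-- A first index where `v (c ·)` is maximal. -/
theorem exists_first_max (hn : 0 < n) (c : Fin n → K) :
    ∃ a : Fin n, (∀ b, v (c b) ≤ v (c a)) ∧ ∀ b, b < a → v (c b) < v (c a) := by
  classical
  have : Nonempty (Fin n) := ⟨⟨0, hn⟩⟩
  obtain ⟨a0, -, ha0⟩ := Finset.exists_max_image (Finset.univ : Finset (Fin n)) (fun b => v (c b))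
    Finset.univ_nonempty
  set S : Finset (Fin n) := Finset.univ.filter fun b => ∀ b', v (c b') ≤ v (c b) with hS
  have hmemS : ∀ b, b ∈ S ↔ ∀ b', v (c b') ≤ v (c b) := by
    intro b
    rw [hS, Finset.mem_filter]
    simp
  have hSne : S.Nonempty := ⟨a0, (hmemS a0).mpr fun b' => ha0 b' (Finset.mem_univ _)⟩
  refine ⟨S.min' hSne, (hmemS _).mp (S.min'_mem hSne), ?_⟩
  intro b hb
  by_contra hnot
  rw [not_lt] at hnot
  have hbS : b ∈ S := (hmemS b).mpr fun b' =>
    ((hmemS _).mp (S.min'_mem hSne) b').trans hnot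
  exact absurd (S.min'_le b hbS) (not_le.mpr hb)

/-- **Orthonormality**: `‖∑ c a • e a‖ ≤ μ ↔ ∀ a, v (c a) ≤ μ`. -/
theorem IsGaussFamily.forall_apply_sum_le_iff (hG : IsGaussFamily v φ e idx) (c : Fin n → K)
    (μ : Γ₀) : (∀ j, v (φ j (∑ a, c a • e a)) ≤ μ) ↔ ∀ a, v (c a) ≤ μ := by
  constructor
  · intro h a
    have hn : 0 < n := Fin.pos a
    obtain ⟨a', hmax, hfirst⟩ := exists_first_max (v := v) hn c
    have := hG.apply_sum_eq c a' hmax hfirst
    exact (hmax a).trans (this ▸ h (idx a'))
  · intro h j
    exact hG.apply_sum_le c h j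

/-- Strict version (reduction modulo the maximal ideal is injective on the unit ball). -/
theorem IsGaussFamily.forall_apply_sum_lt_iff (hG : IsGaussFamily v φ e idx) (c : Fin n → K)
    {μ : Γ₀} (hμ : μ ≠ 0) : (∀ j, v (φ j (∑ a, c a • e a)) < μ) ↔ ∀ a, v (c a) < μ := by
  constructor
  · intro h a
    have hn : 0 < n := Fin.pos a
    obtain ⟨a', hmax, hfirst⟩ := exists_first_max (v := v) hn c
    have := hG.apply_sum_eq c a' hmax hfirst
    exact lt_of_le_of_lt (hmax a) (this ▸ h (idx a'))
  · intro h j
    exact hG.apply_sum_lt c hμ h j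

/-- In terms of coordinates in a Gauss basis: the ball of radius `μ` is given by `v (coordinate) ≤ μ`.
For `μ = 1`: the unit ball is the free module over the valuation ring spanned by the basis. -/
theorem IsGaussFamily.forall_apply_le_iff_repr {b : Basis (Fin n) K V}
    (hG : IsGaussFamily v φ b idx) (x : V) (μ : Γ₀) :
    (∀ j, v (φ j x) ≤ μ) ↔ ∀ a, v (b.repr x a) ≤ μ := by
  have h := hG.forall_apply_sum_le_iff (fun a => b.repr x a) μ
  rwa [b.sum_repr x] at h

theorem IsGaussFamily.forall_apply_lt_iff_repr {b : Basis (Fin n) K V}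
    (hG : IsGaussFamily v φ b idx) (x : V) {μ : Γ₀} (hμ : μ ≠ 0) :
    (∀ j, v (φ j x) < μ) ↔ ∀ a, v (b.repr x a) < μ := by
  have h := hG.forall_apply_sum_lt_iff (fun a => b.repr x a) hμ
  rwa [b.sum_repr x] at h

end orthonormal

end Fermat.Agent.GJ.GaussLattice
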