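/-
GATE-J / J1-ORTH (helper90): intrinsic orthonormal bases.

Setting (= "valued side" of the J1 design): `K ⊆ F` fields, `A : ValuationSubring K`,
`Rw : ValuationSubring F` with `Rw ∩ K = A`.  Suppose there is ONE (possibly infinite) orthonormal
family `g : J → F` (elements of `Rw` whose reductions are linearly independent over the residue
field of `A`; in the application `g (a, i) = t ^ a * b i`).  Then every finite dimensional
`K`-subspace `V ≤ F` which can be moved into the `K`-span of `g` by a unit of `Rw` has an orthonormal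
basis `e`: for `x ∈ V`, `x ∈ Rw ↔` all coordinates lie in `A`, and `x` is a nonunit of `Rw ↔` all
coordinates are nonunits of `A`.  Consequently the unit ball `V ∩ Rw` is a free `A`-module of rank
`dim V`, finitely generated and saturated, and reduction is injective on it modulo the maximal
ideal.  No series expansions are used.  Mathlib + `GaussBasis` only.
-/
import Mathlib
import Fermat.Agent.GJ.Lattice.GaussBasis

set_option autoImplicit false

open Module

namespace Fermat.Agent.GJ.Ortho

variable {K F : Type*} [Field K] [Field F] [Algebra K F]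

section basics

variable (A : ValuationSubring K) (Rw : ValuationSubring F)

theorem mul_mem_nonunits {r y : F} (hr : r ∈ Rw) (hy : y ∈ Rw.nonunits) :
    r * y ∈ Rw.nonunits := by
  rw [ValuationSubring.mem_nonunits_iff] at hy ⊢
  rw [map_mul]
  have h1 : Rw.valuation r ≤ 1 := (Rw.valuation_le_one_iff r).mpr hr
  calc Rw.valuation r * Rw.valuation y ≤ 1 * Rw.valuation y := mul_le_mul' h1 le_rfl
    _ = Rw.valuation y := one_mul _
    _ < 1 := hy

variable {A Rw}

theorem valuation_algebraMap_le_one_iff (hA : ∀ a : K, algebraMap K F a ∈ Rw ↔ a ∈ A) (a : K) :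
    Rw.valuation (algebraMap K F a) ≤ 1 ↔ A.valuation a ≤ 1 := by
  rw [ValuationSubring.valuation_le_one_iff, ValuationSubring.valuation_le_one_iff]
  exact hA a

theorem algebraMap_mem_nonunits_iff (hA : ∀ a : K, algebraMap K F a ∈ Rw ↔ a ∈ A) (a : K) :
    algebraMap K F a ∈ Rw.nonunits ↔ a ∈ A.nonunits := by
  rw [ValuationSubring.mem_nonunits_iff_or, ValuationSubring.mem_nonunits_iff_or, ← map_inv₀,
    hA a⁻¹, map_eq_zero]

theorem valuation_algebraMap_lt_one_iff (hA : ∀ a : K, algebraMap K F a ∈ Rw ↔ a ∈ A) (a : K) :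
    Rw.valuation (algebraMap K F a) < 1 ↔ A.valuation a < 1 := by
  rw [← ValuationSubring.mem_nonunits_iff, ← ValuationSubring.mem_nonunits_iff]
  exact algebraMap_mem_nonunits_iff hA a

end basics

section family

variable (A : ValuationSubring K) (Rw : ValuationSubring F)

/-- An orthonormal family: elements of `Rw` whose reductions are linearly independent over the
residue field of `A` (stated without residue fields). -/
structure IsOrthoFamily {J : Type*} (g : J → F) : Prop where
  mem : ∀ j, g j ∈ Rw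
  indep : ∀ c : J →₀ K, (∀ j, c j ∈ A) → Finsupp.linearCombination K g c ∈ Rw.nonunits →
    ∀ j, c j ∈ A.nonunits

variable {A Rw} {J : Type*} {g : J → F}

theorem IsOrthoFamily.linearCombination_mem (hA : ∀ a : K, algebraMap K F a ∈ Rw ↔ a ∈ A)
    (hg : IsOrthoFamily A Rw g) (c : J →₀ K) (hc : ∀ j, c j ∈ A) :
    Finsupp.linearCombination K g c ∈ Rw := by
  rw [Finsupp.linearCombination_apply, Finsupp.sum]
  refine sum_mem fun j _ => ?_
  rw [Algebra.smul_def]
  exact Rw.mul_mem _ _ ((hA _).mpr (hc j)) (hg.mem j)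

/-- The norm of a combination is the largest norm of a coefficient. -/
theorem IsOrthoFamily.valuation_linearCombination
    (hA : ∀ a : K, algebraMap K F a ∈ Rw ↔ a ∈ A) (hg : IsOrthoFamily A Rw g) (l : J →₀ K)
    (j0 : J) (h0 : l j0 ≠ 0) (hmax : ∀ j, A.valuation (l j) ≤ A.valuation (l j0)) :
    Rw.valuation (Finsupp.linearCombination K g l) = Rw.valuation (algebraMap K F (l j0)) := by
  set a := l j0 with ha
  set l' : J →₀ K := a⁻¹ • l with hl'
  have hva : A.valuation a ≠ 0 := (Valuation.ne_zero_iff _).mpr h0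
  have hl'A : ∀ j, l' j ∈ A := by
    intro j
    rw [← ValuationSubring.valuation_le_one_iff, hl', Finsupp.smul_apply, smul_eq_mul, map_mul,
      map_inv₀]
    calc (A.valuation a)⁻¹ * A.valuation (l j) ≤ (A.valuation a)⁻¹ * A.valuation a :=
          mul_le_mul' le_rfl (hmax j)
      _ = 1 := inv_mul_cancel₀ hva
  have hy : Finsupp.linearCombination K g l' ∈ Rw := hg.linearCombination_mem hA l' hl'A
  have hy' : Finsupp.linearCombination K g l' ∉ Rw.nonunits := by
    intro hmem
    have h1 := hg.indep l' hl'A hmem j0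
    rw [hl', Finsupp.smul_apply, smul_eq_mul, ← ha, inv_mul_cancel₀ h0,
      ValuationSubring.mem_nonunits_iff, map_one] at h1
    exact lt_irrefl _ h1
  have hval : Rw.valuation (Finsupp.linearCombination K g l') = 1 := by
    rw [ValuationSubring.mem_nonunits_iff, not_lt] at hy'
    exact le_antisymm ((Rw.valuation_le_one_iff _).mpr hy) hy'
  have hl : l = a • l' := by rw [hl', smul_inv_smul₀ h0]
  rw [hl, map_smul, Algebra.smul_def, map_mul, hval, mul_one]

/-- A maximal coefficient of a nonzero finitely supported family. -/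
theorem exists_max_coeff (l : J →₀ K) (hl : l ≠ 0) :
    ∃ j0, l j0 ≠ 0 ∧ ∀ j, A.valuation (l j) ≤ A.valuation (l j0) := by
  classical
  obtain ⟨j0, hj0, hmax⟩ := Finset.exists_max_image l.support (fun j => A.valuation (l j))
    (Finsupp.support_nonempty_iff.mpr hl)
  refine ⟨j0, Finsupp.mem_support_iff.mp hj0, fun j => ?_⟩
  by_cases hj : j ∈ l.support
  · exact hmax j hj
  · rw [Finsupp.notMem_support_iff.mp hj, map_zero]
    exact zero_le

theorem IsOrthoFamily.linearCombination_mem_iff (hA : ∀ a : K, algebraMap K F a ∈ Rw ↔ a ∈ A)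
    (hg : IsOrthoFamily A Rw g) (l : J →₀ K) :
    Finsupp.linearCombination K g l ∈ Rw ↔ ∀ j, l j ∈ A := by
  refine ⟨fun h => ?_, hg.linearCombination_mem hA l⟩
  by_cases hl : l = 0
  · intro j; rw [hl]; exact A.zero_mem
  obtain ⟨j0, h0, hmax⟩ := exists_max_coeff (A := A) l hl
  have hv := hg.valuation_linearCombination hA l j0 h0 hmax
  rw [← ValuationSubring.valuation_le_one_iff, hv, valuation_algebraMap_le_one_iff hA] at h
  intro j
  rw [← ValuationSubring.valuation_le_one_iff]
  exact (hmax j).trans h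

theorem IsOrthoFamily.linearCombination_mem_nonunits_iff
    (hA : ∀ a : K, algebraMap K F a ∈ Rw ↔ a ∈ A) (hg : IsOrthoFamily A Rw g) (l : J →₀ K) :
    Finsupp.linearCombination K g l ∈ Rw.nonunits ↔ ∀ j, l j ∈ A.nonunits := by
  by_cases hl : l = 0
  · subst hl
    simp only [map_zero, Finsupp.coe_zero, Pi.zero_apply]
    refine ⟨fun _ _ => ?_, fun _ => ?_⟩
    · rw [ValuationSubring.mem_nonunits_iff, map_zero]; exact zero_lt_one
    · rw [ValuationSubring.mem_nonunits_iff, map_zero]; exact zero_lt_one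
  obtain ⟨j0, h0, hmax⟩ := exists_max_coeff (A := A) l hl
  have hv := hg.valuation_linearCombination hA l j0 h0 hmax
  rw [ValuationSubring.mem_nonunits_iff, hv, valuation_algebraMap_lt_one_iff hA]
  refine ⟨fun h j => ?_, fun h => ?_⟩
  · rw [ValuationSubring.mem_nonunits_iff]
    exact lt_of_le_of_lt (hmax j) h
  · exact (ValuationSubring.mem_nonunits_iff A).mp (h j0)

theorem IsOrthoFamily.linearIndependent (hA : ∀ a : K, algebraMap K F a ∈ Rw ↔ a ∈ A)
    (hg : IsOrthoFamily A Rw g) : LinearIndependent K g := by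
  rw [linearIndependent_iff]
  intro l hl0
  by_contra hl
  obtain ⟨j0, h0, hmax⟩ := exists_max_coeff (A := A) l hl
  have hv := hg.valuation_linearCombination hA l j0 h0 hmax
  rw [hl0, map_zero] at hv
  have := (Valuation.zero_iff _).mp hv.symm
  exact h0 ((map_eq_zero _).mp this)

end family

section basis

variable (A : ValuationSubring K) (Rw : ValuationSubring F)

/-- An orthonormal basis of a subspace `V ≤ F`: membership of `Rw` (resp. of its maximal ideal) is
read off coordinatewise. -/
def IsOrthoBasis {ι : Type*} (V : Submodule K F) (e : Basis ι K V) : Prop :=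
  ∀ x : V, ((x : F) ∈ Rw ↔ ∀ i, e.repr x i ∈ A) ∧
    ((x : F) ∈ Rw.nonunits ↔ ∀ i, e.repr x i ∈ A.nonunits)

variable {A Rw} {J : Type*} {g : J → F}

theorem mem_of_valuation_eq_one_mul {s x : F} (hs : Rw.valuation s = 1) :
    s * x ∈ Rw ↔ x ∈ Rw := by
  rw [← ValuationSubring.valuation_le_one_iff, ← ValuationSubring.valuation_le_one_iff, map_mul,
    hs, one_mul]

theorem mem_nonunits_of_valuation_eq_one_mul {s x : F} (hs : Rw.valuation s = 1) :
    s * x ∈ Rw.nonunits ↔ x ∈ Rw.nonunits := by
  rw [ValuationSubring.mem_nonunits_iff, ValuationSubring.mem_nonunits_iff, map_mul, hs, one_mul]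

/-- **Existence of orthonormal bases.**  `V` is a finite dimensional subspace which a unit `s` of
`Rw` moves into the span of the orthonormal family `g`. -/
theorem exists_orthoBasis (hA : ∀ a : K, algebraMap K F a ∈ Rw ↔ a ∈ A)
    (hg : IsOrthoFamily A Rw g) (V : Submodule K F) [FiniteDimensional K V]
    (hden : ∃ s : F, Rw.valuation s = 1 ∧ ∀ x ∈ V, s * x ∈ Submodule.span K (Set.range g)) :
    ∃ e : Basis (Fin (finrank K V)) K V, IsOrthoBasis A Rw V e := by
  classical
  obtain ⟨s, hs1, hsV⟩ := hden
  have hs0 : s ≠ 0 := by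
    rintro rfl
    rw [map_zero] at hs1
    exact zero_ne_one hs1
  have hli := hg.linearIndependent hA
  -- the map `x ↦ s * x` into the span of `g`
  let T : V →ₗ[K] Submodule.span K (Set.range g) :=
    { toFun := fun x => ⟨s * x, hsV x x.2⟩
      map_add' := fun x y => by
        apply Subtype.ext
        simp [mul_add]
      map_smul' := fun c x => by
        apply Subtype.ext
        simp }
  let φ : J → V →ₗ[K] K := fun j => (Finsupp.lapply j).comp (hli.repr.comp T)
  have hφ : ∀ j (x : V), φ j x = hli.repr (T x) j := fun _ _ => rfl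
  have hsum : ∀ x : V, Finsupp.linearCombination K g (hli.repr (T x)) = s * (x : F) :=
    fun x => hli.linearCombination_repr (T x)
  have hne : ∀ x : V, x ≠ 0 → hli.repr (T x) ≠ 0 := by
    intro x hx h0
    have h1 := hsum x
    rw [h0, map_zero] at h1
    rcases mul_eq_zero.mp h1.symm with h2 | h2
    · exact hs0 h2
    · exact hx (Subtype.ext h2)
  have hNA : GaussLattice.NormAttained A.valuation φ := by
    intro x hx
    obtain ⟨j0, h0, hmax⟩ := exists_max_coeff (A := A) _ (hne x hx)
    exact ⟨j0, h0, hmax⟩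
  obtain ⟨e, idx, hG⟩ := GaussLattice.exists_gaussBasis A.valuation φ hNA
  refine ⟨e, fun x => ⟨?_, ?_⟩⟩
  · have h1 := hG.forall_apply_le_iff_repr x 1
    rw [← mem_of_valuation_eq_one_mul hs1, ← hsum x, hg.linearCombination_mem_iff hA]
    simp only [hφ, ValuationSubring.valuation_le_one_iff] at h1
    exact h1
  · have h1 := hG.forall_apply_lt_iff_repr x (one_ne_zero)
    rw [← mem_nonunits_of_valuation_eq_one_mul hs1, ← hsum x,
      hg.linearCombination_mem_nonunits_iff hA]
    simp only [hφ, ← ValuationSubring.mem_nonunits_iff] at h1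
    exact h1

end basis

section ball

variable (A : ValuationSubring K) (Rw : ValuationSubring F)

/-- The unit ball `V ∩ Rw` of a subspace, as an `A`-module. -/
def unitBall (hA : ∀ a : K, algebraMap K F a ∈ Rw ↔ a ∈ A) (V : Submodule K F) :
    Submodule A F where
  carrier := {x | x ∈ V ∧ x ∈ Rw}
  add_mem' := fun hx hy => ⟨V.add_mem hx.1 hy.1, Rw.add_mem _ _ hx.2 hy.2⟩
  zero_mem' := ⟨V.zero_mem, Rw.zero_mem⟩
  smul_mem' := fun a x hx => ⟨V.smul_mem (a : K) hx.1, by
    show (a : K) • x ∈ Rw
    rw [Algebra.smul_def]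
    exact Rw.mul_mem _ _ ((hA _).mpr a.2) hx.2⟩

variable {A Rw}

theorem mem_unitBall {hA : ∀ a : K, algebraMap K F a ∈ Rw ↔ a ∈ A} {V : Submodule K F} {x : F} :
    x ∈ unitBall A Rw hA V ↔ x ∈ V ∧ x ∈ Rw := Iff.rfl

theorem unitBall_mono (hA : ∀ a : K, algebraMap K F a ∈ Rw ↔ a ∈ A) {V W : Submodule K F}
    (h : V ≤ W) : unitBall A Rw hA V ≤ unitBall A Rw hA W :=
  fun _ hx => ⟨h hx.1, hx.2⟩

/-- The unit ball is saturated. -/
theorem mem_unitBall_of_smul_mem (hA : ∀ a : K, algebraMap K F a ∈ Rw ↔ a ∈ A)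
    {V : Submodule K F} {c : A} (hc : c ≠ 0) {x : F} (hx : c • x ∈ unitBall A Rw hA V)
    (hxR : x ∈ Rw) : x ∈ unitBall A Rw hA V := by
  refine ⟨?_, hxR⟩
  have hc' : (c : K) ≠ 0 := fun h => hc (Subtype.ext h)
  have h1 : (c : K) • x ∈ V := hx.1
  have h2 := V.smul_mem (c : K)⁻¹ h1
  rwa [inv_smul_smul₀ hc'] at h2

variable {ι : Type*} [Fintype ι] {V : Submodule K F} {e : Basis ι K V}

omit [Fintype ι] in
theorem IsOrthoBasis.mem (he : IsOrthoBasis A Rw V e) (i : ι) : ((e i : V) : F) ∈ Rw := by
  classical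
  refine (he (e i)).1.mpr fun j => ?_
  rw [Basis.repr_self, Finsupp.single_apply]
  split_ifs
  · exact A.one_mem
  · exact A.zero_mem

theorem IsOrthoBasis.unitBall_eq_span (hA : ∀ a : K, algebraMap K F a ∈ Rw ↔ a ∈ A)
    (he : IsOrthoBasis A Rw V e) :
    unitBall A Rw hA V = Submodule.span A (Set.range fun i => ((e i : V) : F)) := by
  apply le_antisymm
  · rintro x ⟨hxV, hxR⟩
    have hc := (he ⟨x, hxV⟩).1.mp hxR
    have hx : x = ∑ i, (⟨e.repr ⟨x, hxV⟩ i, hc i⟩ : A) • ((e i : V) : F) := by
      have h1 := congrArg (fun y : V => (y : F)) (e.sum_repr ⟨x, hxV⟩)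
      simp only [Submodule.coe_sum, Submodule.coe_smul] at h1
      exact h1.symm
    rw [hx]
    exact Submodule.sum_mem _ fun i _ =>
      Submodule.smul_mem _ _ (Submodule.subset_span ⟨i, rfl⟩)
  · rw [Submodule.span_le]
    rintro _ ⟨i, rfl⟩
    exact ⟨(e i).2, he.mem i⟩

theorem IsOrthoBasis.unitBall_fg (hA : ∀ a : K, algebraMap K F a ∈ Rw ↔ a ∈ A)
    (he : IsOrthoBasis A Rw V e) : (unitBall A Rw hA V).FG := by
  rw [he.unitBall_eq_span hA]
  exact Submodule.fg_span (Set.finite_range _)

/-- Reduction is injective on the unit ball: a nonunit of the unit ball lies in `𝔪 • ball`. -/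
theorem IsOrthoBasis.mem_smul_unitBall (hA : ∀ a : K, algebraMap K F a ∈ Rw ↔ a ∈ A)
    (he : IsOrthoBasis A Rw V e) {x : F} (hx : x ∈ unitBall A Rw hA V)
    (hx' : x ∈ Rw.nonunits) :
    x ∈ IsLocalRing.maximalIdeal A • unitBall A Rw hA V := by
  obtain ⟨hxV, hxR⟩ := hx
  have hc := (he ⟨x, hxV⟩).2.mp hx'
  have hcA : ∀ i, e.repr ⟨x, hxV⟩ i ∈ A := fun i => A.nonunits_subset (hc i)
  have hx : x = ∑ i, (⟨e.repr ⟨x, hxV⟩ i, hcA i⟩ : A) • ((e i : V) : F) := by
    have h1 := congrArg (fun y : V => (y : F)) (e.sum_repr ⟨x, hxV⟩)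
    simp only [Submodule.coe_sum, Submodule.coe_smul] at h1
    exact h1.symm
  rw [hx]
  refine Submodule.sum_mem _ fun i _ => Submodule.smul_mem_smul ?_ ⟨(e i).2, he.mem i⟩
  exact ValuationSubring.coe_mem_nonunits_iff.mp (hc i)

end ball

section package

variable (A : ValuationSubring K) (Rw : ValuationSubring F)

/-- `(F, Rw)` admits orthonormal bases over `(K, A)`: every finite dimensional subspace has one. -/
def HasOrthoBases : Prop :=
  ∀ (V : Submodule K F), FiniteDimensional K V →
    ∃ e : Basis (Fin (finrank K V)) K V, IsOrthoBasis A Rw V e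

/-- Denominators: every finite dimensional subspace is moved into the span of `g` by a unit. -/
def HasDenominators (K : Type*) {F : Type*} [Field K] [Field F] [Algebra K F]
    (Rw : ValuationSubring F) {J : Type*} (g : J → F) : Prop :=
  ∀ (V : Submodule K F), FiniteDimensional K V →
    ∃ s : F, Rw.valuation s = 1 ∧ ∀ x ∈ V, s * x ∈ Submodule.span K (Set.range g)

variable {A Rw}

theorem hasOrthoBases_of_family (hA : ∀ a : K, algebraMap K F a ∈ Rw ↔ a ∈ A) {J : Type*}
    {g : J → F} (hg : IsOrthoFamily A Rw g) (hden : HasDenominators K Rw g) :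
    HasOrthoBases A Rw :=
  fun V hV => by
    have := hV
    exact exists_orthoBasis hA hg V (hden V hV)

/-- Denominators from a multiplicative set of units stabilising the span. -/
theorem hasDenominators_of_submonoid {J : Type*} {g : J → F} (S : Submonoid F)
    (hS1 : ∀ s ∈ S, Rw.valuation s = 1)
    (hSW : ∀ s ∈ S, ∀ x ∈ Submodule.span K (Set.range g),
      s * x ∈ Submodule.span K (Set.range g))
    (hSd : ∀ x : F, ∃ s ∈ S, s * x ∈ Submodule.span K (Set.range g)) :
    HasDenominators K Rw g := by
  classical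
  intro V hV
  have := hV
  set W := Submodule.span K (Set.range g) with hW
  let b := Module.finBasis K V
  choose s hsS hsb using fun i => hSd ((b i : V) : F)
  refine ⟨∏ i, s i, hS1 _ (Submonoid.prod_mem S fun i _ => hsS i), ?_⟩
  have hle : V ≤ W.comap (LinearMap.mulLeft K (∏ i, s i)) := by
    have hV' : V = Submodule.span K (Set.range fun i => ((b i : V) : F)) := by
      have h1 := b.span_eq
      have h2 := congrArg (Submodule.map V.subtype) h1
      rw [Submodule.map_span, Submodule.map_top, Submodule.range_subtype, ← Set.range_comp] at h2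
      exact h2.symm
    refine le_trans (le_of_eq hV') (Submodule.span_le.mpr ?_)
    rintro _ ⟨i, rfl⟩
    show (∏ j, s j) * ((b i : V) : F) ∈ W
    rw [← Finset.mul_prod_erase Finset.univ s (Finset.mem_univ i), mul_comm (s i), mul_assoc]
    exact hSW _ (Submonoid.prod_mem S fun j _ => hsS j) _ (hsb i)
  intro x hx
  exact hle hx

theorem HasOrthoBases.unitBall_fg (h : HasOrthoBases A Rw)
    (hA : ∀ a : K, algebraMap K F a ∈ Rw ↔ a ∈ A) (V : Submodule K F) [hV : FiniteDimensional K V] :
    (unitBall A Rw hA V).FG := by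
  obtain ⟨e, he⟩ := h V hV
  exact he.unitBall_fg hA

theorem HasOrthoBases.mem_smul_unitBall (h : HasOrthoBases A Rw)
    (hA : ∀ a : K, algebraMap K F a ∈ Rw ↔ a ∈ A) (V : Submodule K F) [hV : FiniteDimensional K V]
    {x : F} (hx : x ∈ unitBall A Rw hA V) (hx' : x ∈ Rw.nonunits) :
    x ∈ IsLocalRing.maximalIdeal A • unitBall A Rw hA V := by
  obtain ⟨e, he⟩ := h V hV
  exact he.mem_smul_unitBall hA hx hx'

/-- **Unramified**: every nonzero element has the norm of a scalar. -/
theorem HasOrthoBases.exists_valuation_eq (h : HasOrthoBases A Rw) {x : F} (hx : x ≠ 0) :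
    ∃ c : K, c ≠ 0 ∧ Rw.valuation x = Rw.valuation (algebraMap K F c) := by
  classical
  set V : Submodule K F := Submodule.span K {x} with hV
  obtain ⟨e, he⟩ := h V inferInstance
  have hd : finrank K V = 1 := finrank_span_singleton hx
  have hpos : 0 < finrank K V := by omega
  set i0 : Fin (finrank K V) := ⟨0, hpos⟩ with hi0
  have huniq : ∀ i : Fin (finrank K V), i = i0 := fun i => Fin.ext (by have := i.2; simp [hi0]; omega)
  set x' : V := ⟨x, Submodule.mem_span_singleton_self x⟩ with hx'
  have hsum := e.sum_repr x'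
  have hsum2 : ∑ i, e.repr x' i • e i = e.repr x' i0 • e i0 :=
    Finset.sum_eq_single i0 (fun i _ hi => absurd (huniq i) hi)
      (fun h => absurd (Finset.mem_univ _) h)
  have hsum' : x' = e.repr x' i0 • e i0 := hsum.symm.trans hsum2
  set c := e.repr x' i0 with hc
  have hc0 : c ≠ 0 := by
    intro h0
    rw [h0, zero_smul] at hsum'
    exact hx (congrArg Subtype.val hsum')
  -- `e i0` is a unit of `Rw`
  have he1 : Rw.valuation ((e i0 : V) : F) = 1 := by
    have hmem := he.mem i0
    have hnon : ((e i0 : V) : F) ∉ Rw.nonunits := by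
      intro hn
      have h1 := (he (e i0)).2.mp hn i0
      rw [Basis.repr_self, Finsupp.single_eq_same, ValuationSubring.mem_nonunits_iff, map_one] at h1
      exact lt_irrefl _ h1
    rw [ValuationSubring.mem_nonunits_iff, not_lt] at hnon
    exact le_antisymm ((Rw.valuation_le_one_iff _).mpr hmem) hnon
  refine ⟨c, hc0, ?_⟩
  have hxF : x = c • ((e i0 : V) : F) := by
    have := congrArg (fun y : V => (y : F)) hsum'
    simpa using this
  rw [hxF, Algebra.smul_def, map_mul, he1, mul_one]

/-- **Absorbing**: every element is moved into `Rw` by a nonzero scalar of `A`. -/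
theorem HasOrthoBases.exists_smul_mem (h : HasOrthoBases A Rw)
    (hA : ∀ a : K, algebraMap K F a ∈ Rw ↔ a ∈ A) (x : F) :
    ∃ a : A, a ≠ 0 ∧ a • x ∈ Rw := by
  by_cases hx : x = 0
  · exact ⟨1, one_ne_zero, by rw [hx, smul_zero]; exact Rw.zero_mem⟩
  obtain ⟨c, hc0, hval⟩ := h.exists_valuation_eq hx
  rcases A.mem_or_inv_mem c with hcA | hcA
  · refine ⟨1, one_ne_zero, ?_⟩
    rw [one_smul, ← ValuationSubring.valuation_le_one_iff, hval,
      ValuationSubring.valuation_le_one_iff]
    exact (hA c).mpr hcA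
  · refine ⟨⟨c⁻¹, hcA⟩, fun h0 => inv_ne_zero hc0 (congrArg Subtype.val h0), ?_⟩
    show (c⁻¹ : K) • x ∈ Rw
    rw [← ValuationSubring.valuation_le_one_iff, Algebra.smul_def, map_mul, hval, ← map_mul,
      ← map_mul, inv_mul_cancel₀ hc0, map_one, map_one]

end package

section reduction

variable (A : ValuationSubring K) (Rw : ValuationSubring F)
  {k Ft : Type*} [Field k] [Field Ft] [Algebra k Ft] (res : A →+* k) (red : Rw →+* Ft)

/-- A compatible pair of reduction maps `res : A → k`, `red : Rw → Ft`. -/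
structure IsRedSystem (hA : ∀ a : K, algebraMap K F a ∈ Rw ↔ a ∈ A) : Prop where
  res_surj : Function.Surjective res
  res_ker : ∀ a : A, res a = 0 ↔ (a : K) ∈ A.nonunits
  red_ker : ∀ x : Rw, red x = 0 ↔ (x : F) ∈ Rw.nonunits
  comp : ∀ a : A, red ⟨algebraMap K F a, (hA a).mpr a.2⟩ = algebraMap k Ft (res a)

/-- The reduction of the unit ball of `V`, as a `k`-subspace of `Ft`. -/
def redBall (V : Submodule K F) : Submodule k Ft :=
  Submodule.span k (red '' {x : Rw | (x : F) ∈ V})

variable {A Rw res red}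

theorem red_mem_redBall {V : Submodule K F} (x : Rw) (hx : (x : F) ∈ V) :
    red x ∈ redBall (k := k) Rw red V :=
  Submodule.subset_span ⟨x, hx, rfl⟩

variable {hA : ∀ a : K, algebraMap K F a ∈ Rw ↔ a ∈ A}

/-- Integral combinations of elements of `Rw`, as elements of `Rw`. -/
theorem IsRedSystem.exists_comb (hR : IsRedSystem A Rw res red hA) {ι : Type*} [Fintype ι]
    (c : ι → A) (y : ι → Rw) :
    ∃ z : Rw, (z : F) = ∑ i, (c i : K) • (y i : F) ∧ red z = ∑ i, res (c i) • red (y i) := by
  refine ⟨∑ i, (⟨algebraMap K F (c i), (hA _).mpr (c i).2⟩ : Rw) * y i, ?_, ?_⟩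
  · rw [AddSubmonoidClass.coe_finsetSum]
    refine Finset.sum_congr rfl fun i _ => ?_
    rw [Algebra.smul_def]
    rfl
  · rw [map_sum]
    refine Finset.sum_congr rfl fun i _ => ?_
    rw [map_mul, hR.comp, Algebra.smul_def]

variable {ι : Type*} [Fintype ι] {V : Submodule K F} {e : Basis ι K V}

/-- The reductions of an orthonormal basis are linearly independent. -/
theorem IsOrthoBasis.linearIndependent_red (hR : IsRedSystem A Rw res red hA)
    (he : IsOrthoBasis A Rw V e) :
    LinearIndependent k fun i => red ⟨((e i : V) : F), he.mem i⟩ := by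
  classical
  rw [Fintype.linearIndependent_iff]
  intro γ hγ i
  choose c hc using fun i => hR.res_surj (γ i)
  obtain ⟨z, hz1, hz2⟩ := hR.exists_comb c fun i => (⟨((e i : V) : F), he.mem i⟩ : Rw)
  have hz0 : red z = 0 := by
    rw [hz2, ← hγ]
    exact Finset.sum_congr rfl fun i _ => by rw [hc i]
  have hzn := (hR.red_ker z).mp hz0
  set x : V := ∑ i, (c i : K) • e i with hx
  have hxz : (x : F) = (z : F) := by
    rw [hz1, hx, Submodule.coe_sum]
    exact Finset.sum_congr rfl fun i _ => rfl
  rw [← hxz] at hzn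
  have h1 := (he x).2.mp hzn i
  rw [hx, Basis.repr_sum_self] at h1
  rw [← hc i]
  exact (hR.res_ker (c i)).mpr h1

/-- The reduction of the unit ball is spanned by the reductions of an orthonormal basis. -/
theorem IsOrthoBasis.redBall_eq_span (hR : IsRedSystem A Rw res red hA)
    (he : IsOrthoBasis A Rw V e) :
    redBall Rw red V = Submodule.span k (Set.range fun i => red ⟨((e i : V) : F), he.mem i⟩) := by
  apply le_antisymm
  · rw [redBall, Submodule.span_le]
    rintro _ ⟨x, hxV, rfl⟩
    have hc := (he ⟨x, hxV⟩).1.mp x.2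
    obtain ⟨z, hz1, hz2⟩ := hR.exists_comb (fun i => (⟨e.repr ⟨x, hxV⟩ i, hc i⟩ : A))
      fun i => (⟨((e i : V) : F), he.mem i⟩ : Rw)
    have hzx : z = x := by
      apply Subtype.ext
      rw [hz1]
      have h1 := congrArg (fun y : V => (y : F)) (e.sum_repr ⟨x, hxV⟩)
      simp only [Submodule.coe_sum, Submodule.coe_smul] at h1
      exact h1
    rw [← hzx, hz2]
    exact Submodule.sum_mem _ fun i _ =>
      Submodule.smul_mem _ _ (Submodule.subset_span ⟨i, rfl⟩)
  · rw [Submodule.span_le]
    rintro _ ⟨i, rfl⟩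
    exact red_mem_redBall _ (e i).2

theorem IsOrthoBasis.finrank_redBall (hR : IsRedSystem A Rw res red hA)
    (he : IsOrthoBasis A Rw V e) : finrank k (redBall (k := k) Rw red V) = Fintype.card ι := by
  rw [he.redBall_eq_span hR]
  exact finrank_span_eq_card (he.linearIndependent_red hR)

/-- Every element of the reduction of the unit ball is the reduction of an element. -/
theorem IsOrthoBasis.exists_of_mem_redBall (hR : IsRedSystem A Rw res red hA)
    (he : IsOrthoBasis A Rw V e) {y : Ft} (hy : y ∈ redBall (k := k) Rw red V) :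
    ∃ x : Rw, (x : F) ∈ V ∧ red x = y := by
  rw [he.redBall_eq_span hR] at hy
  obtain ⟨γ, rfl⟩ := (Submodule.mem_span_range_iff_exists_fun k).mp hy
  choose c hc using fun i => hR.res_surj (γ i)
  obtain ⟨z, hz1, hz2⟩ := hR.exists_comb c fun i => (⟨((e i : V) : F), he.mem i⟩ : Rw)
  refine ⟨z, ?_, ?_⟩
  · rw [hz1]
    exact Submodule.sum_mem _ fun i _ => V.smul_mem _ (e i).2
  · rw [hz2]
    exact Finset.sum_congr rfl fun i _ => by rw [hc i]

end reduction

section reductionPackage

variable {A : ValuationSubring K} {Rw : ValuationSubring F}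
  {k Ft : Type*} [Field k] [Field Ft] [Algebra k Ft] {res : A →+* k} {red : Rw →+* Ft}
  {hA : ∀ a : K, algebraMap K F a ∈ Rw ↔ a ∈ A}

/-- **Dimension of the reduction.** -/
theorem HasOrthoBases.finrank_redBall (h : HasOrthoBases A Rw) (hR : IsRedSystem A Rw res red hA)
    (V : Submodule K F) [hV : FiniteDimensional K V] :
    finrank k (redBall (k := k) Rw red V) = finrank K V := by
  obtain ⟨e, he⟩ := h V hV
  rw [he.finrank_redBall hR, Fintype.card_fin]

theorem HasOrthoBases.finiteDimensional_redBall (h : HasOrthoBases A Rw)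
    (hR : IsRedSystem A Rw res red hA) (V : Submodule K F) [hV : FiniteDimensional K V] :
    FiniteDimensional k (redBall (k := k) Rw red V) := by
  obtain ⟨e, he⟩ := h V hV
  rw [he.redBall_eq_span hR]
  exact FiniteDimensional.span_of_finite k (Set.finite_range _)

/-- **Surjectivity of reduction when dimensions agree**: if the reduction of the unit ball of `V`
lies in a `k`-subspace `W` of dimension at most `dim V`, then every element of `W` lifts to the unit
ball of `V`. -/
theorem HasOrthoBases.exists_lift (h : HasOrthoBases A Rw) (hR : IsRedSystem A Rw res red hA)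
    (V : Submodule K F) [hV : FiniteDimensional K V] (W : Submodule k Ft) [FiniteDimensional k W]
    (hle : redBall Rw red V ≤ W) (hdim : finrank k W ≤ finrank K V) {y : Ft} (hy : y ∈ W) :
    ∃ x : Rw, (x : F) ∈ V ∧ red x = y := by
  obtain ⟨e, he⟩ := h V hV
  have heq : redBall Rw red V = W :=
    Submodule.eq_of_le_of_finrank_le hle (by rw [h.finrank_redBall hR V]; exact hdim)
  rw [← heq] at hy
  exact he.exists_of_mem_redBall hR hy

theorem HasOrthoBases.redBall_eq_of_le (h : HasOrthoBases A Rw) (hR : IsRedSystem A Rw res red hA)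
    (V : Submodule K F) [hV : FiniteDimensional K V] (W : Submodule k Ft) [FiniteDimensional k W]
    (hle : redBall Rw red V ≤ W) (hdim : finrank k W ≤ finrank K V) : redBall Rw red V = W :=
  Submodule.eq_of_le_of_finrank_le hle (by rw [h.finrank_redBall hR V]; exact hdim)

end reductionPackage

section functionForm

variable {A : ValuationSubring K} {Rw : ValuationSubring F}

/-- Orthonormal bases in "function form" (no `Basis`, no subtype): a spanning independent family
`e i ∈ V ∩ Rw` with `∑ c i • e i ∈ Rw ↔ ∀ i, c i ∈ A` (and the strict version). -/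
theorem HasOrthoBases.exists_family (h : HasOrthoBases A Rw) (V : Submodule K F)
    [hV : FiniteDimensional K V] :
    ∃ e : Fin (finrank K V) → F, (∀ i, e i ∈ V) ∧ (∀ i, e i ∈ Rw) ∧ LinearIndependent K e ∧
      Submodule.span K (Set.range e) = V ∧
      (∀ c : Fin (finrank K V) → K, (∑ i, c i • e i) ∈ Rw ↔ ∀ i, c i ∈ A) ∧
      (∀ c : Fin (finrank K V) → K, (∑ i, c i • e i) ∈ Rw.nonunits ↔ ∀ i, c i ∈ A.nonunits) := by
  obtain ⟨e, he⟩ := h V hV
  have hsum : ∀ c : Fin (finrank K V) → K,
      ((∑ i, c i • e i : V) : F) = ∑ i, c i • ((e i : V) : F) := fun c => by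
    rw [Submodule.coe_sum]
    rfl
  refine ⟨fun i => ((e i : V) : F), fun i => (e i).2, he.mem, ?_, ?_, fun c => ?_, fun c => ?_⟩
  · exact e.linearIndependent.map' V.subtype (Submodule.ker_subtype V)
  · have h1 := e.span_eq
    have h2 := congrArg (Submodule.map V.subtype) h1
    rw [Submodule.map_span, Submodule.map_top, Submodule.range_subtype, ← Set.range_comp] at h2
    exact h2
  · have h1 := (he (∑ i, c i • e i)).1
    rw [hsum, Basis.repr_sum_self] at h1
    exact h1
  · have h1 := (he (∑ i, c i • e i)).2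
    rw [hsum, Basis.repr_sum_self] at h1
    exact h1

end functionForm

end Fermat.Agent.GJ.Ortho
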