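/-
GATE-J / J1-ORTH (helper90): the orthonormal family of a Gauss chart.

`t ∈ Rw`, `b i ∈ Rw` (finitely many) such that the reductions `red (t ^ n * b i)` are linearly
independent over the residue field `k` (i.e. `red t` is transcendental over `k` and the `red (b i)`
are independent over `k(red t)`), and such that the `b i` span `F` over `K(t)` in the form
`s(t) * x = ∑ p i (t) * b i`.  Then `t ^ n * b i` is an orthonormal family with denominators, hence
`(F, Rw)` has orthonormal bases over `(K, A)` (`HasOrthoBases`).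
-/
import Mathlib
import Fermat.Agent.GJ.Lattice.OrthoBall

set_option autoImplicit false

open Module Polynomial

namespace Fermat.Agent.GJ.Ortho

variable {K F : Type*} [Field K] [Field F] [Algebra K F]
  {A : ValuationSubring K} {Rw : ValuationSubring F}

/-- The chart family `t ^ n * b i`, indexed by `(i, n)`. -/
def chartFamily {ι : Type*} (t : F) (b : ι → F) : ι × ℕ → F := fun x => t ^ x.2 * b x.1

section ortho

variable {k Ft : Type*} [Field k] [Field Ft] [Algebra k Ft] {res : A →+* k} {red : Rw →+* Ft}
  {hA : ∀ a : K, algebraMap K F a ∈ Rw ↔ a ∈ A}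

/-- If the reductions of `t ^ n * b i` are linearly independent over `k`, then `t ^ n * b i` is an
orthonormal family. -/
theorem isOrthoFamily_chart (hR : IsRedSystem A Rw res red hA) {ι : Type*} (t : Rw) (b : ι → Rw)
    (hind : LinearIndependent k fun x : ι × ℕ => red (t ^ x.2 * b x.1)) :
    IsOrthoFamily A Rw (chartFamily (t : F) fun i => (b i : F)) := by
  classical
  refine ⟨fun x => Rw.mul_mem _ _ (pow_mem t.2 _) (b x.1).2, fun c hc hmem => ?_⟩
  rw [Finsupp.linearCombination_apply, Finsupp.sum] at hmem
  set z : Rw := ∑ j ∈ c.support,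
    (⟨algebraMap K F (c j), (hA _).mpr (hc j)⟩ : Rw) * (t ^ j.2 * b j.1) with hz
  have hzF : (z : F) = ∑ j ∈ c.support, c j • chartFamily (t : F) (fun i => (b i : F)) j := by
    rw [hz, AddSubmonoidClass.coe_finsetSum]
    refine Finset.sum_congr rfl fun j _ => ?_
    rw [Algebra.smul_def]
    rfl
  have hz0 : red z = 0 := (hR.red_ker z).mpr (by rw [hzF]; exact hmem)
  have hsum : ∑ j ∈ c.support, res ⟨c j, hc j⟩ • red (t ^ j.2 * b j.1) = 0 := by
    rw [← hz0, hz, map_sum]
    refine Finset.sum_congr rfl fun j _ => ?_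
    rw [Algebra.smul_def, ← hR.comp ⟨c j, hc j⟩, ← map_mul]
  have h0 := (linearIndependent_iff'.mp hind) c.support (fun j => res ⟨c j, hc j⟩) hsum
  intro j
  by_cases hj : j ∈ c.support
  · exact (hR.res_ker ⟨c j, hc j⟩).mp (h0 j hj)
  · rw [Finsupp.notMem_support_iff.mp hj, ValuationSubring.mem_nonunits_iff, map_zero]
    exact zero_lt_one

/-- `hind` from: `red t` transcendental over `k` and the `red (b i)` linearly independent over
`k[red t]`. -/
theorem linearIndependent_chart_of_transcendental {ι : Type*} (t : Rw) (b : ι → Rw)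
    (ht : Transcendental k (red t))
    (hb : LinearIndependent (Algebra.adjoin k {red t}) fun i => red (b i)) :
    LinearIndependent k fun x : ι × ℕ => red (t ^ x.2 * b x.1) := by
  set S := Algebra.adjoin k {red t} with hS
  let τ : S := ⟨red t, Algebra.self_mem_adjoin_singleton k (red t)⟩
  have hpow : LinearIndependent k fun n : ℕ => τ ^ n := by
    apply LinearIndependent.of_comp S.val.toLinearMap
    have h1 : LinearIndependent k fun n : ℕ => (red t) ^ n := by
      have h2 := (Polynomial.basisMonomials k).linearIndependent.map'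
        (Polynomial.aeval (red t)).toLinearMap
        (LinearMap.ker_eq_bot.mpr (transcendental_iff_injective.mp ht))
      have h3 : ((Polynomial.aeval (red t)).toLinearMap ∘ ⇑(Polynomial.basisMonomials k)) =
          fun n : ℕ => (red t) ^ n := by
        funext n
        simp [Polynomial.coe_basisMonomials]
      rwa [h3] at h2
    have h4 : (⇑S.val.toLinearMap ∘ fun n : ℕ => τ ^ n) = fun n : ℕ => (red t) ^ n := by
      funext n
      simp [τ]
    rw [h4]
    exact h1
  have h := linearIndependent_smul hpow hb
  have h' := h.comp (fun x : ι × ℕ => (x.2, x.1)) (fun x y hxy => by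
    have h1 := congrArg Prod.fst hxy
    have h2 := congrArg Prod.snd hxy
    exact Prod.ext h2 h1)
  convert h' using 1
  funext x
  simp only [Function.comp, map_mul, map_pow]
  rfl

end ortho

section denominators

variable {ι : Type*} (t : F) (b : ι → F)

theorem chartFamily_mem_span (i : ι) (n : ℕ) :
    t ^ n * b i ∈ Submodule.span K (Set.range (chartFamily t b)) :=
  Submodule.subset_span ⟨(i, n), rfl⟩

theorem mul_mem_span_chart {x : F} (hx : x ∈ Submodule.span K (Set.range (chartFamily t b))) :
    t * x ∈ Submodule.span K (Set.range (chartFamily t b)) := by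
  have hle : Submodule.span K (Set.range (chartFamily t b)) ≤
      (Submodule.span K (Set.range (chartFamily t b))).comap (LinearMap.mulLeft K t) := by
    rw [Submodule.span_le]
    rintro _ ⟨⟨i, n⟩, rfl⟩
    show t * (t ^ n * b i) ∈ Submodule.span K (Set.range (chartFamily t b))
    rw [← mul_assoc, ← pow_succ']
    exact chartFamily_mem_span t b i (n + 1)
  exact hle hx

theorem pow_mul_mem_span_chart (n : ℕ) {x : F}
    (hx : x ∈ Submodule.span K (Set.range (chartFamily t b))) :
    t ^ n * x ∈ Submodule.span K (Set.range (chartFamily t b)) := by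
  induction n with
  | zero => simpa using hx
  | succ n ih =>
    rw [pow_succ', mul_assoc]
    exact mul_mem_span_chart t b ih

theorem aeval_mul_mem_span_chart (p : K[X]) {x : F}
    (hx : x ∈ Submodule.span K (Set.range (chartFamily t b))) :
    aeval t p * x ∈ Submodule.span K (Set.range (chartFamily t b)) := by
  rw [aeval_eq_sum_range, Finset.sum_mul]
  refine Submodule.sum_mem _ fun n _ => ?_
  rw [smul_mul_assoc]
  exact Submodule.smul_mem _ _ (pow_mul_mem_span_chart t b n hx)

theorem aeval_mul_chart_mem_span (p : K[X]) (i : ι) :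
    aeval t p * b i ∈ Submodule.span K (Set.range (chartFamily t b)) := by
  have h0 : b i ∈ Submodule.span K (Set.range (chartFamily t b)) := by
    have := chartFamily_mem_span (K := K) t b i 0
    simpa using this
  exact aeval_mul_mem_span_chart t b p h0

variable {t b}

/-- The norm of `s(t)`, `s ≠ 0`, is the norm of a nonzero scalar. -/
theorem exists_valuation_aeval_eq (hA : ∀ a : K, algebraMap K F a ∈ Rw ↔ a ∈ A) [Nonempty ι]
    (hg : IsOrthoFamily A Rw (chartFamily t b)) {s : K[X]} (hs : s ≠ 0) :
    ∃ c0 : K, c0 ≠ 0 ∧ Rw.valuation (aeval t s) = Rw.valuation (algebraMap K F c0) := by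
  classical
  obtain ⟨i0⟩ := ‹Nonempty ι›
  set l : ι × ℕ →₀ K :=
    ∑ n ∈ Finset.range (s.natDegree + 1), Finsupp.single ((i0, n) : ι × ℕ) (s.coeff n) with hl
  have hlc : Finsupp.linearCombination K (chartFamily t b) l = aeval t s * b i0 := by
    rw [hl, map_sum, aeval_eq_sum_range, Finset.sum_mul]
    refine Finset.sum_congr rfl fun n _ => ?_
    rw [Finsupp.linearCombination_single, smul_mul_assoc]
    rfl
  have hl0 : l ≠ 0 := by
    intro h0
    have h1 : l (i0, s.natDegree) = s.leadingCoeff := by
      rw [hl, Finsupp.finsetSum_apply,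
        Finset.sum_eq_single s.natDegree]
      · rw [Finsupp.single_eq_same]
        rfl
      · intro n _ hn
        rw [Finsupp.single_apply, if_neg]
        intro h2
        exact hn (Prod.ext_iff.mp h2).2
      · intro h2
        exact absurd (Finset.mem_range.mpr (Nat.lt_succ_self _)) h2
    rw [h0] at h1
    exact (leadingCoeff_ne_zero.mpr hs) h1.symm
  obtain ⟨j0, h0, hmax⟩ := exists_max_coeff (A := A) l hl0
  have hv := hg.valuation_linearCombination hA l j0 h0 hmax
  -- `b i0` has norm one
  have hb1 : Rw.valuation (b i0) = 1 := by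
    have h1 := hg.valuation_linearCombination hA (Finsupp.single ((i0, 0) : ι × ℕ) (1 : K))
      (i0, 0) (by simp) (fun j => by
        rw [Finsupp.single_eq_same, Finsupp.single_apply]
        split_ifs
        · exact le_rfl
        · rw [map_zero]; exact zero_le)
    rw [Finsupp.single_eq_same, Finsupp.linearCombination_single, map_one, map_one] at h1
    simpa [chartFamily] using h1
  refine ⟨l j0, h0, ?_⟩
  rw [← hv, hlc, map_mul, hb1, mul_one]

/-- **Denominators for the chart family.** -/
theorem hasDenominators_chart (hA : ∀ a : K, algebraMap K F a ∈ Rw ↔ a ∈ A) [Nonempty ι]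
    [Fintype ι] (hg : IsOrthoFamily A Rw (chartFamily t b))
    (hspan : ∀ x : F, ∃ s : K[X], s ≠ 0 ∧ ∃ p : ι → K[X],
      aeval t s * x = ∑ i, aeval t (p i) * b i) :
    HasDenominators K Rw (chartFamily t b) := by
  classical
  let S : Submonoid F :=
    { carrier := {s | Rw.valuation s = 1 ∧ ∃ p : K[X], aeval t p = s}
      mul_mem' := by
        rintro x y ⟨hx, p, rfl⟩ ⟨hy, q, rfl⟩
        exact ⟨by rw [map_mul, hx, hy, mul_one], p * q, map_mul _ _ _⟩
      one_mem' := ⟨map_one _, 1, map_one _⟩ }
  refine hasDenominators_of_submonoid S (fun s hs => hs.1) ?_ ?_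
  · rintro _ ⟨-, p, rfl⟩ x hx
    exact aeval_mul_mem_span_chart t b p hx
  · intro x
    obtain ⟨s0, hs0, p, hp⟩ := hspan x
    obtain ⟨c0, hc0, hval⟩ := exists_valuation_aeval_eq hA hg hs0
    have hc0F : algebraMap K F c0 ≠ 0 := fun h => hc0 ((map_eq_zero _).mp h)
    refine ⟨aeval t (C c0⁻¹ * s0), ⟨?_, _, rfl⟩, ?_⟩
    · rw [map_mul, aeval_C, map_mul, hval, ← map_mul, ← map_mul, inv_mul_cancel₀ hc0, map_one,
        map_one]
    · rw [map_mul, aeval_C, mul_assoc, hp, ← Algebra.smul_def]
      exact Submodule.smul_mem _ _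
        (Submodule.sum_mem _ fun i _ => aeval_mul_chart_mem_span t b (p i) i)

/-- `hspan` from: the `b i` span `F` over `K(t)`. -/
theorem hspan_of_span_eq_top [Fintype ι]
    (h : Submodule.span (IntermediateField.adjoin K {t}) (Set.range b) = ⊤) (x : F) :
    ∃ s : K[X], s ≠ 0 ∧ ∃ p : ι → K[X], aeval t s * x = ∑ i, aeval t (p i) * b i := by
  classical
  have hx : x ∈ Submodule.span (IntermediateField.adjoin K {t}) (Set.range b) := by
    rw [h]; trivial
  obtain ⟨f, hf⟩ := (Submodule.mem_span_range_iff_exists_fun _).mp hx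
  -- numerators and denominators
  have hrq : ∀ i, ∃ r q : K[X], aeval t q ≠ 0 ∧ ((f i : IntermediateField.adjoin K {t}) : F) =
      aeval t r / aeval t q := by
    intro i
    obtain ⟨r, q, hrq⟩ := (IntermediateField.mem_adjoin_simple_iff K _).mp (f i).2
    by_cases hq : aeval t q = 0
    · refine ⟨0, 1, by simp, ?_⟩
      rw [hrq, hq, div_zero, map_zero, zero_div]
    · exact ⟨r, q, hq, hrq⟩
  choose r q hq hfrq using hrq
  refine ⟨∏ i, q i, ?_, fun i => r i * ∏ j ∈ Finset.univ.erase i, q j, ?_⟩
  · intro h0
    have h1 : aeval t (∏ i, q i) = 0 := by rw [h0, map_zero]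
    rw [map_prod] at h1
    obtain ⟨i, -, hi⟩ := Finset.prod_eq_zero_iff.mp h1
    exact hq i hi
  · rw [← hf, Finset.mul_sum]
    refine Finset.sum_congr rfl fun i _ => ?_
    have hsm : (f i) • b i = ((f i : IntermediateField.adjoin K {t}) : F) * b i := rfl
    rw [hsm, hfrq i, map_mul, map_prod, map_prod,
      ← Finset.mul_prod_erase Finset.univ (fun j => aeval t (q j)) (Finset.mem_univ i)]
    have hqi := hq i
    field_simp

end denominators

section main

variable {k Ft : Type*} [Field k] [Field Ft] [Algebra k Ft] {res : A →+* k} {red : Rw →+* Ft}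
  {hA : ∀ a : K, algebraMap K F a ∈ Rw ↔ a ∈ A}

/-- **Orthonormal bases from a Gauss chart.** -/
theorem hasOrthoBases_of_chart (hR : IsRedSystem A Rw res red hA) {ι : Type*} [Fintype ι]
    [Nonempty ι] (t : Rw) (b : ι → Rw)
    (hind : LinearIndependent k fun x : ι × ℕ => red (t ^ x.2 * b x.1))
    (hspan : ∀ x : F, ∃ s : K[X], s ≠ 0 ∧ ∃ p : ι → K[X],
      aeval (t : F) s * x = ∑ i, aeval (t : F) (p i) * (b i : F)) :
    HasOrthoBases A Rw := by
  have hg := isOrthoFamily_chart hR t b hind
  exact hasOrthoBases_of_family hA hg (hasDenominators_chart hA hg hspan)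

end main

end Fermat.Agent.GJ.Ortho
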