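/-
GATE-J / J1-ORTH (helper90): adapter from `OrthoBall` / `OrthoChart` to the `Orth` / `ResData`
interface of `GJ/J1/AbsCore*.lean` (hypothesis (H-d) of the abstract core).
-/
import Mathlib
import Fermat.Agent.GJ.J1.AbsCoreSqueeze
import Fermat.Agent.GJ.Lattice.OrthoChart

set_option autoImplicit false

open Module Polynomial

namespace Fermat.Agent.GJ.Ortho

open Fermat.Agent.GJ.J1.AbsCore

variable {K F : Type*} [Field K] [Field F] [Algebra K F]
variable {k κ : Type*} [Field k] [Field κ] [Algebra k κ]
variable {A : ValuationSubring K} {Ow : ValuationSubring F} {π : A →+* k} {red : Ow →+* κ}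

/-- `HasOrthoBases` implies the `Orth` hypothesis (H-d) of the abstract core. -/
theorem orth_of_hasOrthoBases (h : HasOrthoBases A Ow) : Orth A Ow := fun V hV => by
  have := hV
  obtain ⟨e, h1, h2, h3, -, h5, -⟩ := h.exists_family V
  exact ⟨e, h1, h2, h3, fun c hc => (h5 c).mp hc⟩

/-- Residue data of the abstract core form a reduction system. -/
theorem isRedSystem_of_resData (h : ResData A Ow π red) :
    IsRedSystem A Ow π red h.algebraMap_mem_iff where
  res_surj := h.pi_surj
  res_ker := fun a => by rw [h.pi_ker, ValuationSubring.mem_nonunits_iff]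
  red_ker := fun x => by rw [h.red_ker, ValuationSubring.mem_nonunits_iff]
  comp := fun a => h.compat a _

/-- **(H-d) from a Gauss chart**: `t ∈ Ow` with `red t` transcendental over `k`, finitely many
`b i ∈ Ow` whose reductions are linearly independent over `k[red t]` and which span `F` over
`K(t)`. -/
theorem orth_of_chart (h : ResData A Ow π red) {ι : Type*} [Fintype ι] [Nonempty ι] (t : Ow)
    (b : ι → Ow) (ht : Transcendental k (red t))
    (hb : LinearIndependent (Algebra.adjoin k {red t}) fun i => red (b i))
    (hspan : Submodule.span (IntermediateField.adjoin K {(t : F)})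
      (Set.range fun i => (b i : F)) = ⊤) : Orth A Ow :=
  orth_of_hasOrthoBases
    (hasOrthoBases_of_chart (isRedSystem_of_resData h) t b
      (linearIndependent_chart_of_transcendental t b ht hb) (hspan_of_span_eq_top hspan))

/-- Same with the polynomial form of spanning. -/
theorem orth_of_chart' (h : ResData A Ow π red) {ι : Type*} [Fintype ι] [Nonempty ι] (t : Ow)
    (b : ι → Ow) (hind : LinearIndependent k fun x : ι × ℕ => red (t ^ x.2 * b x.1))
    (hspan : ∀ x : F, ∃ s : K[X], s ≠ 0 ∧ ∃ p : ι → K[X],
      aeval (t : F) s * x = ∑ i, aeval (t : F) (p i) * (b i : F)) : Orth A Ow :=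
  orth_of_hasOrthoBases (hasOrthoBases_of_chart (isRedSystem_of_resData h) t b hind hspan)

end Fermat.Agent.GJ.Ortho
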