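/-
GATE-J / J1-ORTH (helper90): adapter of `OrthoBall` / `OrthoChart` to the common `RedData` language
of `GJ/J1/Defs.lean`.
-/
import Mathlib
import Fermat.Agent.GJ.J1.Defs
import Fermat.Agent.GJ.Lattice.OrthoChart

set_option autoImplicit false

open Module Polynomial

namespace Fermat.Agent.GJ.J1

open Fermat.Agent.GJ.Ortho

variable {K F k Ft : Type*} [Field K] [Field F] [Algebra K F] [Field k] [Field Ft] [Algebra k Ft]

theorem RedData.orthoMemIff (R : RedData K F k Ft) (a : K) :
    algebraMap K F a ∈ R.Rw ↔ a ∈ R.A := (R.mem_A_iff a).symm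

/-- The reduction datum is a reduction system in the sense of `OrthoBall`. -/
theorem RedData.orthoRedSystem (R : RedData K F k Ft) :
    IsRedSystem R.A R.Rw R.res R.red R.orthoMemIff where
  res_surj := R.res_surjective
  res_ker := fun a => by
    have h1 : R.res a = 0 ↔ R.red ⟨algebraMap K F (a : K), (R.mem_A_iff a).1 a.2⟩ = 0 := by
      rw [R.red_algebraMap a, map_eq_zero (algebraMap k Ft)]
    rw [h1, R.red_eq_zero_iff, ← ValuationSubring.coe_mem_nonunits_iff]
    exact algebraMap_mem_nonunits_iff R.orthoMemIff (a : K)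
  red_ker := fun x => by
    rw [R.red_eq_zero_iff, ValuationSubring.coe_mem_nonunits_iff]
  comp := fun a => R.red_algebraMap a

/-- `(F, Rw)` has orthonormal bases over `(K, A)`. -/
def RedData.HasOrtho (R : RedData K F k Ft) : Prop := HasOrthoBases R.A R.Rw

/-- **Orthonormal bases from a Gauss chart** `t` and elements `b i ∈ Rw` whose reductions are
independent over `k[red t]` and which span `F` over `K(t)`. -/
theorem RedData.hasOrtho_of_gaussChart (R : RedData K F k Ft) {ι : Type*} [Fintype ι] [Nonempty ι]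
    (t : F) (hts : t ∈ R.Rw) (htt : Transcendental k (R.red ⟨t, hts⟩))
    (b : ι → F) (hb : ∀ i, b i ∈ R.Rw)
    (hbind : LinearIndependent (Algebra.adjoin k {R.red ⟨t, hts⟩}) fun i => R.red ⟨b i, hb i⟩)
    (hspan : Submodule.span (IntermediateField.adjoin K {t}) (Set.range b) = ⊤) :
    R.HasOrtho :=
  hasOrthoBases_of_chart R.orthoRedSystem ⟨t, hts⟩ (fun i => ⟨b i, hb i⟩)
    (linearIndependent_chart_of_transcendental ⟨t, hts⟩ (fun i => ⟨b i, hb i⟩) htt hbind)
    (hspan_of_span_eq_top hspan)

/-- Lifting: if the reductions of `V ∩ Rw` lie in `W` and `dim W ≤ dim V`, every element of `W` is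
the reduction of an element of `V ∩ Rw`. -/
theorem RedData.HasOrtho.exists_isRed (R : RedData K F k Ft) (h : R.HasOrtho)
    (V : Submodule K F) [FiniteDimensional K V] (W : Submodule k Ft) [FiniteDimensional k W]
    (hle : ∀ x (hx : x ∈ R.Rw), x ∈ V → R.red ⟨x, hx⟩ ∈ W) (hdim : finrank k W ≤ finrank K V)
    {y : Ft} (hy : y ∈ W) : ∃ x ∈ V, R.IsRed x y := by
  have hle' : redBall (k := k) R.Rw R.red V ≤ W := by
    rw [redBall, Submodule.span_le]
    rintro _ ⟨x, hxV, rfl⟩
    exact hle x x.2 hxV
  obtain ⟨x, hxV, hxy⟩ := HasOrthoBases.exists_lift h R.orthoRedSystem V W hle' hdim hy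
  exact ⟨x, hxV, x.2, hxy⟩

/-- The reduction of the unit ball of `V` has the same dimension as `V`. -/
theorem RedData.HasOrtho.finrank_redBall (R : RedData K F k Ft) (h : R.HasOrtho)
    (V : Submodule K F) [FiniteDimensional K V] :
    finrank k (redBall (k := k) R.Rw R.red V) = finrank K V :=
  HasOrthoBases.finrank_redBall h R.orthoRedSystem V

end Fermat.Agent.GJ.J1
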