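/-
GATE-J / J1-ORTH (helper90): orthonormal bases from DEGREE PRESERVATION.

If `t` is a Gauss chart of the reduction datum `R` (so `red t` is transcendental over `k`), `F` is
finite over `K(t)` and `[F : K(t)] ≤ [Ft : k(red t)]` (degree preservation; the other inequality
always holds), then `(F, Rw)` has orthonormal bases over `(K, A)`; in particular hypothesis (H-d)
`Orth` of the abstract core holds.  No explicit basis is needed: lift any `k(red t)`-independent
family of the right size.
-/
import Mathlib
import Fermat.Agent.GJ.S37.ResidueDegree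
import Fermat.Agent.GJ.Lattice.OrthoRedData
import Fermat.Agent.GJ.Lattice.OrthoAbsCore

set_option autoImplicit false

open Module Polynomial IntermediateField

namespace Fermat.Agent.GJ.J1

open Fermat.Agent.GJ.Ortho

variable {K F k Ft : Type*} [Field K] [Field F] [Algebra K F] [Field k] [Field Ft] [Algebra k Ft]

/-- Linear independence over `k(τ)` implies linear independence over `k[τ]`. -/
theorem linearIndependent_adjoin_of_intermediateField {ι : Type*} (τ : Ft) (c : ι → Ft)
    (h : LinearIndependent k⟮τ⟯ c) : LinearIndependent (Algebra.adjoin k {τ}) c := by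
  rw [linearIndependent_iff'] at h ⊢
  intro s g hsum i hi
  have hle := IntermediateField.algebra_adjoin_le_adjoin k ({τ} : Set Ft)
  have h1 := h s (fun j => (⟨(g j : Ft), hle (g j).2⟩ : k⟮τ⟯)) (by
    rw [← hsum]
    exact Finset.sum_congr rfl fun j _ => rfl) i hi
  have h2 : ((g i : Algebra.adjoin k {τ}) : Ft) = 0 :=
    congrArg (fun z : k⟮τ⟯ => (z : Ft)) h1
  exact Subtype.ext h2

/-- **Orthonormal bases from degree preservation.** -/
theorem RedData.hasOrtho_of_finrank_le (R : RedData K F k Ft) (t : F) (hts : t ∈ R.Rw)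
    (htt : Transcendental k (R.red ⟨t, hts⟩)) [FiniteDimensional K⟮t⟯ F]
    (hdeg : finrank K⟮t⟯ F ≤ finrank k⟮R.red ⟨t, hts⟩⟯ Ft) : R.HasOrtho := by
  classical
  set τ := R.red ⟨t, hts⟩ with hτ
  have hnpos : 0 < finrank K⟮t⟯ F := finrank_pos
  have hfd : FiniteDimensional k⟮τ⟯ Ft :=
    Module.finite_of_finrank_pos (lt_of_lt_of_le hnpos hdeg)
  let β := Module.finBasis k⟮τ⟯ Ft
  let c : Fin (finrank K⟮t⟯ F) → Ft := fun i => β (Fin.castLE hdeg i)
  have hc : LinearIndependent k⟮τ⟯ c :=
    β.linearIndependent.comp _ (Fin.castLE_injective hdeg)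
  choose b hb using fun i => R.red_surjective (c i)
  have hbli : LinearIndependent k⟮τ⟯ fun i => R.red (b i) := by
    simpa only [hb] using hc
  have : Nonempty (Fin (finrank K⟮t⟯ F)) := ⟨⟨0, hnpos⟩⟩
  refine R.hasOrtho_of_gaussChart t hts htt (fun i => (b i : F)) (fun i => (b i).2) ?_ ?_
  · exact linearIndependent_adjoin_of_intermediateField τ _ hbli
  · have hli := Fermat.Agent.GJ.S37.ResDeg.linearIndependent_of_residue R.A R.Rw
      (fun a ha => (R.mem_A_iff a).1 ha) R.red R.res R.red_algebraMap ⟨t, hts⟩ htt b hbli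
    exact hli.span_eq_top_of_card_eq_finrank' (by simp)

/-- (H-d) of the abstract core from degree preservation. -/
theorem RedData.orth_of_finrank_le (R : RedData K F k Ft) (t : F) (hts : t ∈ R.Rw)
    (htt : Transcendental k (R.red ⟨t, hts⟩)) [FiniteDimensional K⟮t⟯ F]
    (hdeg : finrank K⟮t⟯ F ≤ finrank k⟮R.red ⟨t, hts⟩⟯ Ft) :
    AbsCore.Orth R.A R.Rw :=
  orth_of_hasOrthoBases (R.hasOrtho_of_finrank_le t hts htt hdeg)

end Fermat.Agent.GJ.J1
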