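/-
GATE-J / J1 LAT2 (helper39): the INTRINSIC TWO-CHART LEMMA (report 191 (1)-(3), board 1290/1321).

`A ⊂ K`, `Ow ⊂ F` valuation subrings, `Ow ∩ K = A`, rank one, unramified.  Increasing families of
`K`-subspaces `L1 n = L(nE1)`, `L20 n = L(nE2)`, `L2 n = L(D + nE2)`, `L12 n = L(nE1 + nE2)`.
Given bounded torsion of `B12/(B1 + B2)`, `u ≡ 1` with poles in `E1` and `β ≡ 1` in `L2` with
`β^m u ∈ L20`, some `L1 n ⊓ L2 n'` is nonzero (i.e. `L(D) ≠ 0`).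

Mathlib only.  `exists_root_approx` is G6a (Newton approximation of `(1+ε)^(-1/m)` inside any
commutative ring in which `m` is invertible).
-/
import Mathlib

set_option autoImplicit false

namespace Fermat.Agent.GJ.Lattice

section newton

variable {B : Type*} [CommRing B]

theorem exists_one_sub_pow_eq (y : B) (m : ℕ) :
    ∃ t : B, (1 - y) ^ m = 1 - (m : B) * y + y ^ 2 * t := by
  induction m with
  | zero => exact ⟨0, by simp⟩
  | succ m ih =>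
    obtain ⟨t, ht⟩ := ih
    refine ⟨(m : B) + t - y * t, ?_⟩
    rw [pow_succ, ht]
    push_cast
    ring

/-- **G6a, Newton root approximation.**  If `m` is invertible in `B`, then for every `ε` and `n`
there is `s ∈ 1 + εB` with `s^m (1 + ε) ∈ 1 + ε^(n+1) B`. -/
theorem exists_root_approx (m : ℕ) (minv : B) (hminv : (m : B) * minv = 1) (ε : B) (n : ℕ) :
    ∃ s w r : B, s = 1 + ε * w ∧ s ^ m * (1 + ε) = 1 + ε ^ (n + 1) * r := by
  induction n with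
  | zero => exact ⟨1, 0, 1, by ring, by ring⟩
  | succ n ih =>
    obtain ⟨s, w, r, hs, hsr⟩ := ih
    obtain ⟨t, ht⟩ := exists_one_sub_pow_eq (minv * ε ^ (n + 1) * r) m
    refine ⟨s * (1 - minv * ε ^ (n + 1) * r),
      w - minv * ε ^ n * r - ε * w * minv * ε ^ n * r,
      ε ^ n * (-(r ^ 2) + (1 + ε ^ (n + 1) * r) * minv ^ 2 * r ^ 2 * t), ?_, ?_⟩
    · rw [hs]; ring
    · have h1 : (m : B) * (minv * ε ^ (n + 1) * r) = ε ^ (n + 1) * r := by
        rw [← mul_assoc, ← mul_assoc, hminv, one_mul]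
      rw [mul_pow, mul_right_comm, hsr, ht, h1]
      ring

end newton

section twochart

variable {K F : Type*} [Field K] [Field F] [Algebra K F]

section val

variable {Γ : Type*} [LinearOrderedCommGroupWithZero Γ] (v : Valuation F Γ)

theorem tc_val_eq_one {x : F} (hx : v (x - 1) < 1) : v x = 1 := by
  have := v.map_one_add_of_lt hx
  rwa [add_sub_cancel] at this

theorem tc_one_mul {x y : F} (hx : v (x - 1) < 1) (hy : v (y - 1) < 1) : v (x * y - 1) < 1 := by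
  have hy1 : v y = 1 := tc_val_eq_one v hy
  have : x * y - 1 = (x - 1) * y + (y - 1) := by ring
  rw [this]
  apply v.map_add_lt _ hy
  rw [map_mul, hy1, mul_one]
  exact hx

theorem tc_one_pow {x : F} (hx : v (x - 1) < 1) (n : ℕ) : v (x ^ n - 1) < 1 := by
  induction n with
  | zero => simp
  | succ n ih =>
    rw [pow_succ]
    exact tc_one_mul v ih hx

end val

/-- the integral elements of an increasing multiplicative family of subspaces form a subring -/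
def ballSubring (Ow : ValuationSubring F) (L : ℕ → Submodule K F) (hmono : Monotone L)
    (hone : (1 : F) ∈ L 0) (hmul : ∀ a b, ∀ x ∈ L a, ∀ y ∈ L b, x * y ∈ L (a + b)) :
    Subring F where
  carrier := {x | ∃ n, x ∈ L n ∧ x ∈ Ow}
  mul_mem' := by
    rintro x y ⟨a, hxa, hx⟩ ⟨b, hyb, hy⟩
    exact ⟨a + b, hmul a b x hxa y hyb, Ow.mul_mem _ _ hx hy⟩
  one_mem' := ⟨0, hone, Ow.one_mem⟩
  add_mem' := by
    rintro x y ⟨a, hxa, hx⟩ ⟨b, hyb, hy⟩
    exact ⟨max a b, add_mem (hmono (le_max_left a b) hxa) (hmono (le_max_right a b) hyb),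
      Ow.add_mem _ _ hx hy⟩
  zero_mem' := ⟨0, zero_mem _, Ow.zero_mem⟩
  neg_mem' := by
    rintro x ⟨a, hxa, hx⟩
    exact ⟨a, neg_mem hxa, Ow.neg_mem _ hx⟩

theorem mem_ballSubring {Ow : ValuationSubring F} {L : ℕ → Submodule K F} {hmono : Monotone L}
    {hone : (1 : F) ∈ L 0} {hmul : ∀ a b, ∀ x ∈ L a, ∀ y ∈ L b, x * y ∈ L (a + b)} {x : F} :
    x ∈ ballSubring Ow L hmono hone hmul ↔ ∃ n, x ∈ L n ∧ x ∈ Ow := Iff.rfl

/-- Newton approximation inside a subring of a field containing `1/m` -/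
theorem tc_newton (S : Subring F) (m : ℕ) (hmF : (m : F) ≠ 0) (hminv : ((m : F)⁻¹) ∈ S)
    (ε : F) (hε : ε ∈ S) (n : ℕ) :
    ∃ s ∈ S, ∃ w ∈ S, ∃ r ∈ S, s = 1 + ε * w ∧ s ^ m * (1 + ε) = 1 + ε ^ (n + 1) * r := by
  obtain ⟨s, w, r, hs, hsr⟩ := exists_root_approx (B := S) m ⟨(m : F)⁻¹, hminv⟩
    (Subtype.ext (by push_cast; exact mul_inv_cancel₀ hmF)) ⟨ε, hε⟩ n
  refine ⟨s, s.2, w, w.2, r, r.2, ?_, ?_⟩
  · simpa using congrArg Subtype.val hs
  · simpa using congrArg Subtype.val hsr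

set_option linter.unusedVariables false in
/-- **LAT2, the intrinsic two-chart lemma** (board 1321, exact binders; `bigBall Ow L` is written
out as `∃ n, x ∈ L n ∧ x ∈ Ow`). -/
theorem twoChart (A : ValuationSubring K) (Ow : ValuationSubring F)
    (hcomap : Ow.comap (algebraMap K F) = A)
    (hrank1 : ∀ x c : K, x ∈ A → A.valuation x < 1 → c ≠ 0 →
      ∃ n : ℕ, A.valuation (x ^ n) ≤ A.valuation c)
    (hunram : ∀ x : F, x ≠ 0 → ∃ c : K, c ≠ 0 ∧ Ow.valuation (x / algebraMap K F c) = 1)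
    (m : ℕ) (hm : Ow.valuation (m : F) = 1)
    (L1 L2 L20 L12 : ℕ → Submodule K F)
    (mono1 : Monotone L1) (mono2 : Monotone L2) (mono20 : Monotone L20) (mono12 : Monotone L12)
    (h1 : ∀ n, L1 n ≤ L12 n) (h2 : ∀ n, L2 n ≤ L12 n) (h20 : ∀ n, L20 n ≤ L12 n)
    (one1 : (1 : F) ∈ L1 0) (one20 : (1 : F) ∈ L20 0)
    (mul1 : ∀ a b, ∀ x ∈ L1 a, ∀ y ∈ L1 b, x * y ∈ L1 (a + b))
    (mul20 : ∀ a b, ∀ x ∈ L20 a, ∀ y ∈ L20 b, x * y ∈ L20 (a + b))
    (mul2 : ∀ a b, ∀ x ∈ L20 a, ∀ y ∈ L2 b, x * y ∈ L2 (a + b))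
    (hBT : ∃ c0 : K, c0 ≠ 0 ∧ c0 ∈ A ∧ ∀ x : F, (∃ n, x ∈ L12 n ∧ x ∈ Ow) →
      ∀ c : K, c ≠ 0 → c ∈ A →
      (∃ y1 : F, (∃ n, y1 ∈ L1 n ∧ y1 ∈ Ow) ∧ ∃ y2 : F, (∃ n, y2 ∈ L2 n ∧ y2 ∈ Ow) ∧
        c • x = y1 + y2) →
      ∃ z1 : F, (∃ n, z1 ∈ L1 n ∧ z1 ∈ Ow) ∧ ∃ z2 : F, (∃ n, z2 ∈ L2 n ∧ z2 ∈ Ow) ∧
        c0 • x = z1 + z2)
    (u : F) (n1 : ℕ) (hu1 : u - 1 ∈ L1 n1) (hu : Ow.valuation (u - 1) < 1)
    (β : F) (n2 : ℕ) (hβ2 : β ∈ L2 n2) (hβ : Ow.valuation (β - 1) < 1)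
    (hβu : β ^ m * u ∈ L20 (m * n2)) :
    ∃ n n' : ℕ, ∃ x : F, x ≠ 0 ∧ x ∈ L1 n ∧ x ∈ L2 n' := by
  classical
  obtain ⟨c0, hc0, hc0A, hBT⟩ := hBT
  set v := Ow.valuation with hv
  have hOw : ∀ x : F, x ∈ Ow ↔ v x ≤ 1 := fun x => (Ow.valuation_le_one_iff x).symm
  -- comparison of the two valuations on `K`
  have hEq : A.valuation.IsEquiv (Ow.valuation.comap (algebraMap K F)) := by
    rw [Valuation.isEquiv_iff_val_le_one]
    intro x
    rw [A.valuation_le_one_iff, Valuation.comap_apply, Ow.valuation_le_one_iff, ← hcomap,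
      ValuationSubring.mem_comap]
  have hle : ∀ a b : K, A.valuation a ≤ A.valuation b ↔
      v (algebraMap K F a) ≤ v (algebraMap K F b) := fun a b => hEq a b
  have hlt1 : ∀ a : K, A.valuation a < 1 ↔ v (algebraMap K F a) < 1 := fun a =>
    Valuation.isEquiv_iff_val_lt_one.mp hEq
  have hmemA : ∀ a : K, a ∈ A ↔ algebraMap K F a ∈ Ow := by
    intro a
    rw [← hcomap, ValuationSubring.mem_comap]
  have hvne : ∀ a : K, a ≠ 0 → v (algebraMap K F a) ≠ 0 := by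
    intro a ha
    rw [Valuation.ne_zero_iff]
    exact (map_ne_zero _).mpr ha
  -- the trivial case
  by_cases htriv : u - 1 = 0 ∧ β - 1 = 0
  · refine ⟨0, n2, 1, one_ne_zero, one1, ?_⟩
    rw [← sub_eq_zero.mp htriv.2]
    exact hβ2
  -- a nonzero nonunit `π` of `A`
  obtain ⟨π, hπ0, hπ1⟩ : ∃ π : K, π ≠ 0 ∧ v (algebraMap K F π) < 1 := by
    have : ∃ y : F, y ≠ 0 ∧ v y < 1 := by
      by_cases h : u - 1 = 0
      · exact ⟨β - 1, fun h' => htriv ⟨h, h'⟩, hβ⟩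
      · exact ⟨u - 1, h, hu⟩
    obtain ⟨y, hy0, hy1⟩ := this
    obtain ⟨π, hπ0, hπ⟩ := hunram y hy0
    refine ⟨π, hπ0, ?_⟩
    rw [map_div₀, div_eq_one_iff_eq (hvne π hπ0)] at hπ
    rw [← hπ]
    exact hy1
  have hπA : π ∈ A := (hmemA π).mpr ((hOw _).mpr hπ1.le)
  -- the constant `c`
  set c : K := c0 * π with hc
  have hc_ne : c ≠ 0 := mul_ne_zero hc0 hπ0
  have hcA : c ∈ A := A.mul_mem _ _ hc0A hπA
  have hvc : v (algebraMap K F c) < v (algebraMap K F c0) := by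
    rw [hc, map_mul, map_mul]
    have := mul_lt_mul_of_pos_left hπ1 (zero_lt_iff.mpr (hvne c0 hc0))
    rwa [mul_one] at this
  -- rank one, transferred to `F`
  have hrk : ∀ y : F, v y < 1 → ∃ N : ℕ, ∀ n, N ≤ n → v y ^ n ≤ v (algebraMap K F c) := by
    intro y hy1
    by_cases hy0 : y = 0
    · refine ⟨1, fun n hn => ?_⟩
      rw [hy0, map_zero, zero_pow (by omega)]
      exact zero_le
    · obtain ⟨cy, hcy0, hcy⟩ := hunram y hy0
      rw [map_div₀, div_eq_one_iff_eq (hvne cy hcy0)] at hcy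
      have hcy1 : A.valuation cy < 1 := (hlt1 cy).mpr (hcy ▸ hy1)
      have hcyA : cy ∈ A := (A.valuation_le_one_iff cy).mp hcy1.le
      obtain ⟨N, hN⟩ := hrank1 cy c hcyA hcy1 hc_ne
      refine ⟨N, fun n hn => ?_⟩
      calc v y ^ n ≤ v y ^ N := pow_le_pow_right_of_le_one' hy1.le hn
        _ = v (algebraMap K F (cy ^ N)) := by rw [hcy, map_pow, map_pow]
        _ ≤ v (algebraMap K F c) := (hle _ _).mp hN
  -- `1/m`
  have hmF : (m : F) ≠ 0 := by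
    intro h
    rw [h, map_zero] at hm
    exact zero_ne_one hm
  have hminvOw : ((m : F)⁻¹) ∈ Ow := by
    rw [hOw, map_inv₀, hm, inv_one]
  have hminvL : ∀ (L : ℕ → Submodule K F), (1 : F) ∈ L 0 → ((m : F)⁻¹) ∈ L 0 := by
    intro L hL
    have : ((m : F)⁻¹) = ((m : K)⁻¹) • (1 : F) := by
      rw [Algebra.smul_def, mul_one, map_inv₀, map_natCast]
    rw [this]
    exact (L 0).smul_mem _ hL
  -- the two subrings
  let B1 : Subring F := ballSubring Ow L1 mono1 one1 mul1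
  let B20 : Subring F := ballSubring Ow L20 mono20 one20 mul20
  -- the small elements
  set ε : F := u - 1 with hε
  set g2 : F := β ^ m * u with hg2
  set ε2 : F := g2 - 1 with hε2
  have hε2v : v ε2 < 1 := tc_one_mul v (tc_one_pow v hβ m) hu
  have hεB : ε ∈ B1 := ⟨n1, hu1, (hOw _).mpr hu.le⟩
  have hε2B : ε2 ∈ B20 := by
    refine ⟨m * n2, sub_mem hβu (mono20 (Nat.zero_le _) one20), (hOw _).mpr hε2v.le⟩
  have hu_eq : 1 + ε = u := by rw [hε]; ring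
  have hg2_eq : 1 + ε2 = g2 := by rw [hε2]; ring
  -- choose the precision
  obtain ⟨N1, hN1⟩ := hrk ε hu
  obtain ⟨N2, hN2⟩ := hrk ε2 hε2v
  set n : ℕ := max N1 N2 with hn
  -- Newton approximations
  obtain ⟨b1, hb1B, w1, hw1B, r1, hr1B, hb1w, hb1⟩ :=
    tc_newton B1 m hmF ⟨0, hminvL L1 one1, hminvOw⟩ ε hεB n
  obtain ⟨s2, hs2B, w2, hw2B, r2, hr2B, hs2w, hs2⟩ :=
    tc_newton B20 m hmF ⟨0, hminvL L20 one20, hminvOw⟩ ε2 hε2B n
  rw [hu_eq] at hb1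
  rw [hg2_eq] at hs2
  obtain ⟨a1, hb1L, hb1Ow⟩ := hb1B
  obtain ⟨a2, hs2L, hs2Ow⟩ := hs2B
  obtain ⟨-, -, hw1Ow⟩ := hw1B
  obtain ⟨-, -, hw2Ow⟩ := hw2B
  obtain ⟨-, -, hr1Ow⟩ := hr1B
  obtain ⟨-, -, hr2Ow⟩ := hr2B
  set b2 : F := s2 * β with hb2
  have hb2L : b2 ∈ L2 (a2 + n2) := mul2 a2 n2 s2 hs2L β hβ2
  have hβOw : β ∈ Ow := (hOw _).mpr (tc_val_eq_one v hβ).le
  have hb2Ow : b2 ∈ Ow := Ow.mul_mem _ _ hs2Ow hβOw
  have hb2m : b2 ^ m * u = 1 + ε2 ^ (n + 1) * r2 := by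
    rw [← hs2, hg2, hb2]; ring
  -- congruences to `1`
  have hb1_1 : v (b1 - 1) < 1 := by
    rw [hb1w, add_sub_cancel_left, map_mul]
    exact lt_of_le_of_lt (mul_le_of_le_one_right' ((hOw _).mp hw1Ow)) hu
  have hs2_1 : v (s2 - 1) < 1 := by
    rw [hs2w, add_sub_cancel_left, map_mul]
    exact lt_of_le_of_lt (mul_le_of_le_one_right' ((hOw _).mp hw2Ow)) hε2v
  have hb2_1 : v (b2 - 1) < 1 := tc_one_mul v hs2_1 hβ
  have hvb1 : v b1 = 1 := tc_val_eq_one v hb1_1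
  have hvu : v u = 1 := tc_val_eq_one v hu
  -- `Θ`
  set Θ : F := ∑ i ∈ Finset.range m, b1 ^ i * b2 ^ (m - 1 - i) with hΘ
  have hΘmul : Θ * (b1 - b2) = b1 ^ m - b2 ^ m := geom_sum₂_mul _ _ _
  have hΘm : v (Θ - (m : F)) < 1 := by
    have : Θ - (m : F) = ∑ i ∈ Finset.range m, (b1 ^ i * b2 ^ (m - 1 - i) - 1) := by
      rw [Finset.sum_sub_distrib, Finset.sum_const, Finset.card_range, nsmul_eq_mul, mul_one]
    rw [this]
    exact v.map_sum_lt one_ne_zero (fun i _ =>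
      tc_one_mul v (tc_one_pow v hb1_1 i) (tc_one_pow v hb2_1 _))
  have hvΘ : v Θ = 1 := by
    have h1 : Θ = (m : F) + (Θ - (m : F)) := by ring
    rw [h1, v.map_add_eq_of_lt_left (by rw [hm]; exact hΘm), hm]
  -- the difference `b1 - b2` is divisible by `c`
  have hdiff : (b1 - b2) * (Θ * u) = ε ^ (n + 1) * r1 - ε2 ^ (n + 1) * r2 := by
    have : (b1 - b2) * (Θ * u) = (Θ * (b1 - b2)) * u := by ring
    rw [this, hΘmul, sub_mul, hb1, hb2m]; ring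
  have hvdiff : v (b1 - b2) ≤ v (algebraMap K F c) := by
    have h1 : v (b1 - b2) = v ((b1 - b2) * (Θ * u)) := by
      rw [map_mul, map_mul, hvΘ, hvu, mul_one, mul_one]
    rw [h1, hdiff]
    apply v.map_sub_le
    · rw [map_mul, map_pow]
      calc v ε ^ (n + 1) * v r1 ≤ v ε ^ (n + 1) := mul_le_of_le_one_right' ((hOw _).mp hr1Ow)
        _ ≤ v (algebraMap K F c) := hN1 _ (le_trans (le_max_left _ _) (Nat.le_succ _))
    · rw [map_mul, map_pow]
      calc v ε2 ^ (n + 1) * v r2 ≤ v ε2 ^ (n + 1) := mul_le_of_le_one_right' ((hOw _).mp hr2Ow)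
        _ ≤ v (algebraMap K F c) := hN2 _ (le_trans (le_max_right _ _) (Nat.le_succ _))
  -- the element `x = (b1 - b2)/c`
  set ac : F := algebraMap K F c with hac
  have hac0 : ac ≠ 0 := (map_ne_zero _).mpr hc_ne
  set x : F := (b1 - b2) / ac with hx
  have hxOw : x ∈ Ow := by
    rw [hOw, hx, map_div₀]
    exact (div_le_one₀ (zero_lt_iff.mpr (hvne c hc_ne))).mpr hvdiff
  have hcx : c • x = b1 - b2 := by
    rw [Algebra.smul_def, hx, ← hac, mul_div_cancel₀ _ hac0]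
  set lvl : ℕ := max a1 (a2 + n2) with hlvl
  have hxL : x ∈ L12 lvl := by
    have : x = (c⁻¹) • (b1 - b2) := by
      rw [Algebra.smul_def, map_inv₀, hx, div_eq_inv_mul]
    rw [this]
    apply (L12 lvl).smul_mem
    exact sub_mem (mono12 (le_max_left _ _) (h1 a1 hb1L)) (mono12 (le_max_right _ _) (h2 _ hb2L))
  obtain ⟨z1, ⟨d1, hz1L, hz1Ow⟩, z2, ⟨d2, hz2L, hz2Ow⟩, hz⟩ := hBT x ⟨lvl, hxL, hxOw⟩ c hc_ne hcA
    ⟨b1, ⟨a1, hb1L, hb1Ow⟩, -b2, ⟨a2 + n2, neg_mem hb2L, Ow.neg_mem _ hb2Ow⟩, by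
      rw [hcx]; ring⟩
  -- the common element of `L1` and `L2`
  set w : F := c0 • b1 - c • z1 with hw
  have hw' : w = c0 • b2 + c • z2 := by
    have h3 : c0 • (b1 - b2) = c • (z1 + z2) := by
      rw [← hcx, smul_comm, hz]
    rw [smul_sub, smul_add] at h3
    rw [hw]
    linear_combination h3
  have hwL1 : w ∈ L1 (max a1 d1) :=
    sub_mem ((L1 _).smul_mem _ (mono1 (le_max_left _ _) hb1L))
      ((L1 _).smul_mem _ (mono1 (le_max_right _ _) hz1L))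
  have hwL2 : w ∈ L2 (max (a2 + n2) d2) := by
    rw [hw']
    exact add_mem ((L2 _).smul_mem _ (mono2 (le_max_left _ _) hb2L))
      ((L2 _).smul_mem _ (mono2 (le_max_right _ _) hz2L))
  by_cases hw0 : w = 0
  · exfalso
    have h4 : c0 • b1 = c • z1 := by
      rw [hw] at hw0
      exact sub_eq_zero.mp hw0
    have h5 : v (algebraMap K F c0) = v ac * v z1 := by
      have := congrArg v h4
      rwa [Algebra.smul_def, Algebra.smul_def, map_mul, map_mul, hvb1, mul_one] at this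
    have h6 : v (algebraMap K F c0) ≤ v ac := by
      rw [h5]
      exact mul_le_of_le_one_right' ((hOw _).mp hz1Ow)
    exact absurd h6 (not_le.mpr hvc)
  · exact ⟨_, _, w, hw0, hwL1, hwL2⟩

end twochart

end Fermat.Agent.GJ.Lattice
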