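/-
GATE-J / J1 LAT2 bridge (helper39): `twoChart` discharges helper56's `TwoChartStatement A Ow`
(GJ/J1/AbsCore.lean), so `absCore` becomes unconditional in `hT` once `A` has rank one.
-/
import Mathlib
import Fermat.Agent.GJ.Lattice.TwoChart
import Fermat.Agent.GJ.J1.AbsCore

set_option autoImplicit false

namespace Fermat.Agent.GJ.Lattice

variable {K F : Type*} [Field K] [Field F] [Algebra K F]

/-- LAT2 in the shape consumed by `Fermat.Agent.GJ.J1.AbsCore.absCore`. -/
theorem twoChartStatement (A : ValuationSubring K) (Ow : ValuationSubring F)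
    (hcomap : Ow.comap (algebraMap K F) = A)
    (hrank1 : ∀ x c : K, x ∈ A → A.valuation x < 1 → c ≠ 0 →
      ∃ n : ℕ, A.valuation (x ^ n) ≤ A.valuation c)
    (hunram : ∀ x : F, x ≠ 0 → ∃ c : K, c ≠ 0 ∧ Ow.valuation (x / algebraMap K F c) = 1) :
    Fermat.Agent.GJ.J1.AbsCore.TwoChartStatement A Ow := by
  intro m hm L1 L2 L20 L12 mono1 mono2 mono20 mono12 h1 h2 h20 one1 one20 mul1 mul20 mul2 hBT
    u n1 hu1 hu β n2 hβ2 hβ hβu
  exact twoChart A Ow hcomap hrank1 hunram m hm L1 L2 L20 L12 mono1 mono2 mono20 mono12 h1 h2 h20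
    one1 one20 mul1 mul20 mul2 hBT u n1 hu1 hu β n2 hβ2 hβ hβu

/-- the same from a `ResData` -/
theorem twoChartStatement_of_resData {k κ : Type*} [Field k] [Field κ] [Algebra k κ]
    {A : ValuationSubring K} {Ow : ValuationSubring F} {π : A →+* k} {red : Ow →+* κ}
    (h : Fermat.Agent.GJ.J1.AbsCore.ResData A Ow π red)
    (hrank1 : ∀ x c : K, x ∈ A → A.valuation x < 1 → c ≠ 0 →
      ∃ n : ℕ, A.valuation (x ^ n) ≤ A.valuation c) :
    Fermat.Agent.GJ.J1.AbsCore.TwoChartStatement A Ow :=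
  twoChartStatement A Ow h.comap hrank1 h.unram

end Fermat.Agent.GJ.Lattice
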