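/-
GATE-J / J1 (helper39): linear algebra over a (possibly non-discrete) valuation ring.

`exists_attained` : for a linear map `J : M → N` of finite free modules over a valuation ring `A`
and a coset `x₀ + 𝔪 M`, either some element of the coset is killed by `J`, or the "content" of
`J x` (the smallest ideal `(c)` with `J x ∈ c N`) attains a minimum on the coset.
(Replacement for the Smith normal form, which Mathlib only has over PIDs; proof by a
minimal-valuation pivot.)
-/
import Mathlib

set_option autoImplicit false

open IsLocalRing

universe v w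

namespace Fermat.Agent.GJ.Lattice

section dvd

variable {A : Type*} [CommRing A] [IsDomain A] [ValuationRing A]

/-- In a valuation ring, a nonempty finite family has a member dividing all the others. -/
theorem exists_dvd_all {ι : Type*} (s : Finset ι) (hs : s.Nonempty) (f : ι → A) :
    ∃ i ∈ s, ∀ j ∈ s, f i ∣ f j := by
  classical
  induction s using Finset.induction_on with
  | empty => exact absurd hs (by simp)
  | insert a s ha ih =>
    by_cases hs' : s.Nonempty
    · obtain ⟨i, hi, hdiv⟩ := ih hs'
      rcases ValuationRing.dvd_total (f i) (f a) with h | h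
      · refine ⟨i, Finset.mem_insert_of_mem hi, fun j hj => ?_⟩
        rcases Finset.mem_insert.mp hj with rfl | hj
        · exact h
        · exact hdiv j hj
      · refine ⟨a, Finset.mem_insert_self _ _, fun j hj => ?_⟩
        rcases Finset.mem_insert.mp hj with rfl | hj
        · exact dvd_rfl
        · exact h.trans (hdiv j hj)
    · rw [Finset.not_nonempty_iff_eq_empty] at hs'
      subst hs'
      exact ⟨a, by simp, fun j hj => by simp at hj; subst hj; exact dvd_rfl⟩

end dvd

section smulTop

variable {A : Type*} [CommRing A]
variable {M N : Type*} [AddCommGroup M] [Module A M] [AddCommGroup N] [Module A N]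

/-- linear maps preserve `I • ⊤` -/
theorem map_mem_smul_top (I : Ideal A) (φ : M →ₗ[A] N) {x : M}
    (hx : x ∈ I • (⊤ : Submodule A M)) : φ x ∈ I • (⊤ : Submodule A N) := by
  refine Submodule.smul_induction_on hx (fun r hr n _ => ?_) (fun x y hx hy => ?_)
  · rw [map_smul]; exact Submodule.smul_mem_smul hr Submodule.mem_top
  · rw [map_add]; exact add_mem hx hy

theorem mem_of_mem_smul_top_self (I : Ideal A) {a : A} (ha : a ∈ I • (⊤ : Submodule A A)) :
    a ∈ I := by
  have : I • (⊤ : Submodule A A) = I := by
    rw [show (⊤ : Submodule A A) = (⊤ : Ideal A) from rfl, smul_eq_mul, Ideal.mul_top]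
  rwa [this] at ha

end smulTop

section att

variable {A : Type*} [CommRing A] [IsDomain A] [ValuationRing A]

/-- **Attained maximum.**  Either the coset `x₀ + 𝔪 M` meets `ker J`, or there are `x` in the
coset and `c ≠ 0` with `J x ∈ c N` such that no element of the coset is mapped into `c 𝔪 N`. -/
theorem exists_attained :
    ∀ (n : ℕ) (M : Type v) (N : Type w) [AddCommGroup M] [Module A M] [Module.Free A M] [Module.Finite A M]
      [AddCommGroup N] [Module A N] [Module.Free A N] [Module.Finite A N],
      Module.finrank A M = n → ∀ (J : M →ₗ[A] N) (x₀ : M),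
      ∃ x : M, x - x₀ ∈ maximalIdeal A • (⊤ : Submodule A M) ∧
        (J x = 0 ∨ ∃ c : A, c ≠ 0 ∧ J x ∈ Ideal.span {c} • (⊤ : Submodule A N) ∧
          ∀ x' : M, x' - x₀ ∈ maximalIdeal A • (⊤ : Submodule A M) →
            J x' ∉ (Ideal.span {c} * maximalIdeal A) • (⊤ : Submodule A N)) := by
  intro n
  induction n with
  | zero =>
    intro M N _ _ _ _ _ _ _ _ hn J x₀
    have hsub : Subsingleton M := Module.finrank_zero_iff.mp hn
    refine ⟨x₀, by simp, Or.inl ?_⟩
    rw [Subsingleton.elim x₀ 0, map_zero]
  | succ n ih =>
    intro M N _ _ _ _ _ _ _ _ hn J x₀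
    classical
    by_cases hJ : J = 0
    · exact ⟨x₀, by simp, Or.inl (by rw [hJ]; rfl)⟩
    -- bases and matrix entries
    let bM := Module.Free.chooseBasis A M
    let bN := Module.Free.chooseBasis A N
    let a : Module.Free.ChooseBasisIndex A M × Module.Free.ChooseBasisIndex A N → A :=
      fun ij => bN.repr (J (bM ij.1)) ij.2
    have hne : (Finset.univ : Finset (Module.Free.ChooseBasisIndex A M ×
        Module.Free.ChooseBasisIndex A N)).Nonempty := by
      by_contra h
      rw [Finset.not_nonempty_iff_eq_empty] at h
      apply hJ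
      refine bM.ext fun i => ?_
      refine bN.repr.injective ?_
      ext j
      exact absurd (Finset.mem_univ (i, j)) (by rw [h]; simp)
    obtain ⟨⟨i₀, j₀⟩, -, hmin⟩ := exists_dvd_all Finset.univ hne a
    set p : A := a (i₀, j₀) with hp
    have hpdvd : ∀ i j, p ∣ a (i, j) := fun i j => hmin (i, j) (Finset.mem_univ _)
    have hp0 : p ≠ 0 := by
      intro h0
      apply hJ
      refine bM.ext fun i => ?_
      refine bN.repr.injective ?_
      ext j
      have := hpdvd i j
      rw [h0, zero_dvd_iff] at this
      simpa [a] using this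
    -- quotients
    choose q hq using hpdvd
    have hq00 : q i₀ j₀ = 1 := by
      have := hq i₀ j₀
      rw [← hp] at this
      exact (mul_left_cancel₀ hp0 (by rw [mul_one]; exact this)).symm
    -- `J (bM i) = p • v i`
    let v : Module.Free.ChooseBasisIndex A M → N := fun i => ∑ j, q i j • bN j
    have hJb : ∀ i, J (bM i) = p • v i := by
      intro i
      conv_lhs => rw [← bN.sum_repr (J (bM i))]
      simp only [v, Finset.smul_sum, smul_smul]
      refine Finset.sum_congr rfl fun j _ => ?_
      rw [← hq i j]
    -- every `J x` is divisible by `p`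
    let Jp : M →ₗ[A] N := bM.constr A v
    have hJp : ∀ x, J x = p • Jp x := by
      intro x
      have : J = p • Jp := by
        refine bM.ext fun i => ?_
        rw [LinearMap.smul_apply, Module.Basis.constr_basis, hJb]
      rw [this, LinearMap.smul_apply]
    -- functionals
    let f : N →ₗ[A] A := bN.coord j₀
    let g : M →ₗ[A] A := f ∘ₗ Jp
    have hfg : ∀ x, f (J x) = p * g x := by
      intro x
      rw [hJp, map_smul, smul_eq_mul]; rfl
    set b : M := bM i₀ with hb
    set n₀ : N := v i₀ with hn₀
    have hgb : g b = 1 := by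
      show f (Jp (bM i₀)) = 1
      rw [Module.Basis.constr_basis]
      show bN.coord j₀ (∑ j, q i₀ j • bN j) = 1
      rw [map_sum]
      simp only [map_smul, smul_eq_mul, Module.Basis.coord_apply, Module.Basis.repr_self]
      rw [Finset.sum_eq_single j₀]
      · simp [hq00]
      · intro j _ hj; simp [hj]
      · intro h; exact absurd (Finset.mem_univ _) h
    have hfn₀ : f n₀ = 1 := by
      have : Jp b = n₀ := by rw [hb, hn₀]; exact Module.Basis.constr_basis _ _ _ _
      rw [← this]; exact hgb
    have hJbn : J b = p • n₀ := hJb i₀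
    -- projections
    let πM : M →ₗ[A] M := LinearMap.id - (LinearMap.toSpanSingleton A M b) ∘ₗ g
    let πN : N →ₗ[A] N := LinearMap.id - (LinearMap.toSpanSingleton A N n₀) ∘ₗ f
    have hπM : ∀ x, πM x = x - g x • b := fun x => rfl
    have hπN : ∀ z, πN z = z - f z • n₀ := fun z => rfl
    let M₁ : Submodule A M := LinearMap.ker g
    let N₁ : Submodule A N := LinearMap.ker f
    have hπM_mem : ∀ x, πM x ∈ M₁ := by
      intro x
      show g (πM x) = 0
      rw [hπM, map_sub, map_smul, hgb, smul_eq_mul, mul_one, sub_self]
    have hπN_mem : ∀ z, πN z ∈ N₁ := by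
      intro z
      show f (πN z) = 0
      rw [hπN, map_sub, map_smul, hfn₀, smul_eq_mul, mul_one, sub_self]
    have hπM_id : ∀ x ∈ M₁, πM x = x := by
      intro x hx
      have : g x = 0 := hx
      rw [hπM, this, zero_smul, sub_zero]
    have hπN_id : ∀ z ∈ N₁, πN z = z := by
      intro z hz
      have : f z = 0 := hz
      rw [hπN, this, zero_smul, sub_zero]
    have hJM₁ : ∀ x ∈ M₁, J x ∈ N₁ := by
      intro x hx
      show f (J x) = 0
      have : g x = 0 := hx
      rw [hfg, this, mul_zero]
    -- the restricted map
    let J₁ : M₁ →ₗ[A] N₁ := J.restrict hJM₁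
    -- `M ≃ M₁ × A`
    let eM : M ≃ₗ[A] M₁ × A :=
      { toFun := fun x => (⟨πM x, hπM_mem x⟩, g x)
        map_add' := fun x y => by ext <;> simp
        map_smul' := fun r x => by ext <;> simp
        invFun := fun y => (y.1 : M) + y.2 • b
        left_inv := fun x => by
          show πM x + g x • b = x
          rw [hπM]; abel
        right_inv := fun y => by
          obtain ⟨⟨y1, hy1⟩, t⟩ := y
          have hg1 : g y1 = 0 := hy1
          ext
          · show πM (y1 + t • b) = y1
            rw [hπM, map_add, map_smul, hg1, hgb]
            simp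
          · show g (y1 + t • b) = t
            rw [map_add, map_smul, hg1, hgb]
            simp }
    let eN : N ≃ₗ[A] N₁ × A :=
      { toFun := fun z => (⟨πN z, hπN_mem z⟩, f z)
        map_add' := fun x y => by ext <;> simp
        map_smul' := fun r x => by ext <;> simp
        invFun := fun y => (y.1 : N) + y.2 • n₀
        left_inv := fun z => by
          show πN z + f z • n₀ = z
          rw [hπN]; abel
        right_inv := fun y => by
          obtain ⟨⟨y1, hy1⟩, t⟩ := y
          have hf1 : f y1 = 0 := hy1
          ext
          · show πN (y1 + t • n₀) = y1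
            rw [hπN, map_add, map_smul, hf1, hfn₀]
            simp
          · show f (y1 + t • n₀) = t
            rw [map_add, map_smul, hf1, hfn₀]
            simp }
    -- `M₁`, `N₁` are finite free
    let ρM : M →ₗ[A] M₁ := πM.codRestrict M₁ hπM_mem
    let ρN : N →ₗ[A] N₁ := πN.codRestrict N₁ hπN_mem
    have hρM_surj : Function.Surjective ρM := fun y => ⟨(y : M), Subtype.ext (hπM_id y y.2)⟩
    have hρN_surj : Function.Surjective ρN := fun y => ⟨(y : N), Subtype.ext (hπN_id y y.2)⟩
    have : Module.Finite A M₁ := Module.Finite.of_surjective ρM hρM_surj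
    have : Module.Finite A N₁ := Module.Finite.of_surjective ρN hρN_surj
    have : Module.Projective A M₁ :=
      Module.Projective.of_split M₁.subtype ρM (by
        ext ⟨x, hx⟩
        exact hπM_id x hx)
    have : Module.Projective A N₁ :=
      Module.Projective.of_split N₁.subtype ρN (by
        ext ⟨x, hx⟩
        exact hπN_id x hx)
    have : Module.Free A M₁ := Module.free_of_flat_of_isLocalRing
    have : Module.Free A N₁ := Module.free_of_flat_of_isLocalRing
    have hrank : Module.finrank A M₁ = n := by
      have h1 := eM.finrank_eq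
      rw [Module.finrank_prod, Module.finrank_self, hn] at h1
      omega
    have hρ : ∀ x, ρN (J x) = J₁ (ρM x) := by
      intro x
      apply Subtype.ext
      show πN (J x) = J (πM x)
      rw [hπN, hπM, map_sub, map_smul, hJbn, hfg, smul_smul, mul_comm]
    have hgm : ∀ z : M, z ∈ maximalIdeal A • (⊤ : Submodule A M) → g z ∈ maximalIdeal A :=
      fun z hz => mem_of_mem_smul_top_self _ (map_mem_smul_top _ g hz)
    by_cases hunit : IsUnit (g x₀)
    · -- the pivot coordinate of `x₀` is a unit: `c = p` is optimal
      refine ⟨x₀, by simp, Or.inr ⟨p, hp0, ?_, ?_⟩⟩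
      · rw [hJp]
        exact Submodule.smul_mem_smul (Ideal.mem_span_singleton_self p) Submodule.mem_top
      · intro x' hx' hmem
        have h1 : f (J x') ∈ Ideal.span {p} * maximalIdeal A :=
          mem_of_mem_smul_top_self _ (map_mem_smul_top _ f hmem)
        rw [hfg, Ideal.mem_span_singleton_mul] at h1
        obtain ⟨t, ht, hpt⟩ := h1
        have h2 : g x' = t := (mul_left_cancel₀ hp0 hpt).symm
        have h3 : g (x' - x₀) ∈ maximalIdeal A := hgm _ hx'
        rw [map_sub, h2] at h3
        have h4 : g x₀ ∈ maximalIdeal A := by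
          have := sub_mem ht h3
          simpa using this
        exact (IsLocalRing.mem_maximalIdeal _).mp h4 hunit
    · -- the pivot coordinate of `x₀` is in `𝔪`: recurse on the complement
      have hgx₀ : g x₀ ∈ maximalIdeal A := (IsLocalRing.mem_maximalIdeal _).mpr hunit
      obtain ⟨y, hy, hy'⟩ := ih M₁ N₁ hrank J₁ (ρM x₀)
      have hyx₀ : (y : M) - x₀ ∈ maximalIdeal A • (⊤ : Submodule A M) := by
        have h1 : M₁.subtype (y - ρM x₀) ∈ maximalIdeal A • (⊤ : Submodule A M) :=
          map_mem_smul_top _ M₁.subtype hy
        have h2 : g x₀ • b ∈ maximalIdeal A • (⊤ : Submodule A M) :=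
          Submodule.smul_mem_smul hgx₀ Submodule.mem_top
        have h3 : (y : M) - x₀ = M₁.subtype (y - ρM x₀) - g x₀ • b := by
          show (y : M) - x₀ = ((y : M) - πM x₀) - g x₀ • b
          rw [hπM]; abel
        rw [h3]
        exact sub_mem h1 h2
      have hJy : J (y : M) = ((J₁ y : N₁) : N) := rfl
      refine ⟨(y : M), hyx₀, ?_⟩
      rcases hy' with h0 | ⟨c, hc0, hc1, hc2⟩
      · left
        rw [hJy, h0]; rfl
      · right
        refine ⟨c, hc0, ?_, ?_⟩
        · rw [hJy]
          exact map_mem_smul_top _ N₁.subtype hc1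
        · intro x' hx' hmem
          refine hc2 (ρM x') ?_ ?_
          · rw [← map_sub]
            exact map_mem_smul_top _ ρM hx'
          · rw [← hρ]
            exact map_mem_smul_top _ ρN hmem

end att

end Fermat.Agent.GJ.Lattice
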