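/-
GATE-J / J1 LAT-core (helper39): the abstract OBSTRUCTION LEMMA over a (possibly non-discrete)
valuation ring `A` (report 190, polar-part form; "ker(Pic(X_{n+1}) → Pic(X_n)) is a k-vector
space, so prime-to-l torsion injects", done with lattices).

Abstract setting: `R` an `A`-algebra of "integral functions", `red : R →+* Rt` the reduction,
`O ⊆ R` the functions regular along (the residue disc of) the pole divisor, `Ot ⊆ Rt` the functions
regular along its reduction, `Pe ⊆ Rt` those with pole order `≤ e` there.  `Lam' = L_A(D' + eE)`,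
`Lam = L_A(m e E)`, `u` with `div u = m D'`, `red u = 1`.  `J : Lam' → N` is a "polar part" map
to a finite free module with `J x ∈ c N ↔ x ∈ O + c R`.

Main result: `exists_regular_of_lattice`.
-/
import Mathlib
import Fermat.Agent.GJ.Lattice.AttainedMax

set_option autoImplicit false

open IsLocalRing

namespace Fermat.Agent.GJ.Lattice

section free

variable {A : Type*} [CommRing A] [IsDomain A] [ValuationRing A]

/-- finitely generated torsion-free modules over a valuation ring are free -/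
theorem free_of_finite_of_torsionFree {M : Type*} [AddCommGroup M] [Module A M]
    [Module.Finite A M] (h : ∀ (c : A) (x : M), c ≠ 0 → c • x = 0 → x = 0) :
    Module.Free A M := by
  have : Module.Flat A M := by
    rw [Module.Flat.flat_iff_torsion_eq_bot_of_isBezout, Submodule.eq_bot_iff]
    intro x hx
    obtain ⟨a, ha⟩ := (Submodule.mem_torsion_iff x).mp hx
    exact h a x (nonZeroDivisors.ne_zero a.2) ha
  exact Module.free_of_flat_of_isLocalRing

omit [IsDomain A] [ValuationRing A] in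
/-- divide an element of a finite free module by a common divisor of its coordinates -/
theorem exists_eq_smul_of_dvd_repr {ι Q : Type*} [Fintype ι] [AddCommGroup Q] [Module A Q]
    (b : Module.Basis ι A Q) (z : Q) (d : A) (hd : ∀ i, d ∣ b.repr z i) :
    ∃ q : Q, z = d • q ∧ ∀ i, b.repr z i = d * b.repr q i := by
  classical
  choose e he using hd
  refine ⟨∑ i, e i • b i, ?_, ?_⟩
  · apply b.ext_elem
    intro i
    rw [map_smul, Finsupp.smul_apply, b.repr_sum_self, smul_eq_mul, he i]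
  · intro i
    rw [b.repr_sum_self, he i]

end free

section sat

variable {A : Type*} [CommRing A] [IsDomain A] [ValuationRing A]
variable {R : Type*} [CommRing R] [Algebra A R]
variable {Rt : Type*} [CommRing Rt] [Nontrivial Rt]

/-- **Saturation of the polar map on `Lam / A·1`.**  If `y ∈ Lam` is regular modulo `c`
(`y ∈ O + c R`), then `y ∈ A·1 + c Lam`. -/
theorem exists_eq_const_add_smul (red : R →+* Rt)
    (hredm : ∀ a ∈ maximalIdeal A, red (algebraMap A R a) = 0)
    (htf : ∀ (c : A) (x : R), c ≠ 0 → c • x = 0 → x = 0)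
    (O : Subalgebra A R) (Ot : Subring Rt)
    (hO : ∀ x ∈ O, red x ∈ Ot)
    (hOsat : ∀ (c : A) (x : R), c ≠ 0 → c • x ∈ O → x ∈ O)
    (Lam : Submodule A R) (hfg : Lam.FG)
    (hred : ∀ y ∈ Lam, red y = 0 → y ∈ maximalIdeal A • Lam)
    (hone : (1 : R) ∈ Lam)
    (hkerbar : ∀ y ∈ Lam, red y ∈ Ot → ∃ a : A, red y = red (algebraMap A R a))
    {y : R} (hy : y ∈ Lam) {c : A} (hc : c ≠ 0) {o r : R} (ho : o ∈ O) (hyo : y = o + c • r) :
    ∃ a : A, ∃ y₁ ∈ Lam, y = algebraMap A R a + c • y₁ := by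
  classical
  let one' : Lam := ⟨1, hone⟩
  let S : Submodule A Lam := Submodule.span A {one'}
  have : Module.Finite A Lam := Module.Finite.iff_fg.mpr hfg
  -- membership in `S`
  have hS : ∀ z : Lam, z ∈ S ↔ ∃ a : A, (z : R) = algebraMap A R a := by
    intro z
    rw [Submodule.mem_span_singleton]
    constructor
    · rintro ⟨a, rfl⟩
      exact ⟨a, by simp [one', Algebra.smul_def]⟩
    · rintro ⟨a, ha⟩
      exact ⟨a, Subtype.ext (by simp [one', ha, Algebra.smul_def])⟩
  -- `Lam / A·1` is torsion free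
  have hQtf : ∀ (d : A) (z : Lam ⧸ S), d ≠ 0 → d • z = 0 → z = 0 := by
    intro d z hd hdz
    obtain ⟨z, rfl⟩ := S.mkQ_surjective z
    rw [← map_smul, Submodule.mkQ_apply, Submodule.Quotient.mk_eq_zero, hS] at hdz
    obtain ⟨a, ha⟩ := hdz
    rw [Submodule.mkQ_apply, Submodule.Quotient.mk_eq_zero, hS]
    have ha' : d • (z : R) = algebraMap A R a := by simpa using ha
    by_cases hda : d ∣ a
    · obtain ⟨a', rfl⟩ := hda
      refine ⟨a', ?_⟩
      have h0 : d • ((z : R) - algebraMap A R a') = 0 := by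
        rw [smul_sub, ha', Algebra.smul_def, ← map_mul, sub_self]
      exact sub_eq_zero.mp (htf d _ hd h0)
    · exfalso
      obtain ⟨d', rfl⟩ := (ValuationRing.dvd_total d a).resolve_left hda
      have ha0 : a ≠ 0 := left_ne_zero_of_mul hd
      have hd'm : d' ∈ maximalIdeal A := by
        rw [mem_maximalIdeal, mem_nonunits_iff]
        rintro ⟨w, rfl⟩
        exact hda ⟨(↑w⁻¹ : A), by rw [mul_assoc, Units.mul_inv, mul_one]⟩
      have h0 : a • (d' • (z : R) - 1) = 0 := by
        rw [smul_sub, ← mul_smul, ha', Algebra.smul_def, mul_one, sub_self]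
      have h1 : d' • (z : R) = 1 := sub_eq_zero.mp (htf a _ ha0 h0)
      have h2 : red (1 : R) = 0 := by
        rw [← h1, Algebra.smul_def, map_mul, hredm d' hd'm, zero_mul]
      rw [map_one] at h2
      exact one_ne_zero h2
  have : Module.Free A (Lam ⧸ S) := free_of_finite_of_torsionFree hQtf
  let b := Module.Free.chooseBasis A (Lam ⧸ S)
  set ybar : Lam ⧸ S := S.mkQ ⟨y, hy⟩ with hybar
  -- the case `ybar = 0`
  have hzero : ybar = 0 → ∃ a : A, ∃ y₁ ∈ Lam, y = algebraMap A R a + c • y₁ := by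
    intro h0
    rw [hybar, Submodule.mkQ_apply, Submodule.Quotient.mk_eq_zero, hS] at h0
    obtain ⟨a, ha⟩ := h0
    exact ⟨a, 0, zero_mem _, by simpa using ha⟩
  by_cases hι : Nonempty (Module.Free.ChooseBasisIndex A (Lam ⧸ S))
  swap
  · apply hzero
    apply b.ext_elem
    intro i
    exact absurd ⟨i⟩ hι
  obtain ⟨i₀, -, hdiv⟩ := exists_dvd_all Finset.univ (Finset.univ_nonempty_iff.mpr hι)
    (fun i => b.repr ybar i)
  set d : A := b.repr ybar i₀ with hd
  by_cases hd0 : d = 0
  · apply hzero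
    apply b.ext_elem
    intro i
    have := hdiv i (Finset.mem_univ _)
    rw [hd0, zero_dvd_iff] at this
    simpa using this
  by_cases hcd : c ∣ d
  · -- `ybar = c • qbar`
    obtain ⟨qbar, hq, -⟩ := exists_eq_smul_of_dvd_repr b ybar c
      (fun i => hcd.trans (hdiv i (Finset.mem_univ _)))
    obtain ⟨q, rfl⟩ := S.mkQ_surjective qbar
    have h1 : (⟨y, hy⟩ : Lam) - c • q ∈ S := by
      rw [← Submodule.Quotient.mk_eq_zero, ← Submodule.mkQ_apply, map_sub, map_smul, ← hybar, hq,
        sub_self]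
    obtain ⟨a, ha⟩ := (hS _).mp h1
    refine ⟨a, (q : R), q.2, ?_⟩
    have : y - c • (q : R) = algebraMap A R a := by simpa using ha
    rw [← this]; abel
  · exfalso
    obtain ⟨c', rfl⟩ := (ValuationRing.dvd_total c d).resolve_left hcd
    have hc'm : c' ∈ maximalIdeal A := by
      rw [mem_maximalIdeal, mem_nonunits_iff]
      rintro ⟨w, rfl⟩
      exact hcd ⟨(↑w⁻¹ : A), by rw [mul_assoc, Units.mul_inv, mul_one]⟩
    obtain ⟨qbar, hq, hqi⟩ := exists_eq_smul_of_dvd_repr b ybar d
      (fun i => hdiv i (Finset.mem_univ _))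
    have hq1 : b.repr qbar i₀ = 1 := by
      have := hqi i₀
      rw [← hd] at this
      exact (mul_left_cancel₀ hd0 (by rw [mul_one]; exact this)).symm
    obtain ⟨q, rfl⟩ := S.mkQ_surjective qbar
    have h1 : (⟨y, hy⟩ : Lam) - d • q ∈ S := by
      rw [← Submodule.Quotient.mk_eq_zero, ← Submodule.mkQ_apply, map_sub, map_smul, ← hybar, hq,
        sub_self]
    obtain ⟨a, ha⟩ := (hS _).mp h1
    have ha' : y - d • (q : R) = algebraMap A R a := by simpa using ha
    -- `q - c' • r ∈ O`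
    have h2 : d • ((q : R) - c' • r) = o - algebraMap A R a := by
      rw [← ha', hyo, smul_sub, ← mul_smul]; abel
    have h3 : (q : R) - c' • r ∈ O := by
      apply hOsat d _ hd0
      rw [h2]
      exact sub_mem ho (O.algebraMap_mem a)
    have h4 : red (q : R) ∈ Ot := by
      have h5 : red (q : R) = red ((q : R) - c' • r) := by
        rw [map_sub, Algebra.smul_def, map_mul, hredm c' hc'm, zero_mul, sub_zero]
      rw [h5]
      exact hO _ h3
    obtain ⟨a', ha'⟩ := hkerbar _ q.2 h4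
    have h6 : (q : R) - algebraMap A R a' ∈ maximalIdeal A • Lam := by
      apply hred _ (sub_mem q.2 ?_)
      · rw [map_sub, ha', sub_self]
      · rw [Algebra.algebraMap_eq_smul_one]
        exact Lam.smul_mem _ hone
    have h7 : q - a' • one' ∈ maximalIdeal A • (⊤ : Submodule A Lam) := by
      rw [Submodule.mem_smul_top_iff]
      simpa [one', Algebra.smul_def] using h6
    have h8 : S.mkQ (q - a' • one') = S.mkQ q := by
      rw [map_sub, sub_eq_self, Submodule.mkQ_apply, Submodule.Quotient.mk_eq_zero]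
      exact S.smul_mem _ (Submodule.mem_span_singleton_self _)
    have h9 : S.mkQ q ∈ maximalIdeal A • (⊤ : Submodule A (Lam ⧸ S)) := by
      rw [← h8]
      exact map_mem_smul_top _ S.mkQ h7
    have h10 : (b.coord i₀) (S.mkQ q) ∈ maximalIdeal A :=
      mem_of_mem_smul_top_self _ (map_mem_smul_top _ (b.coord i₀) h9)
    rw [Module.Basis.coord_apply, hq1] at h10
    exact (mem_maximalIdeal _).mp h10 isUnit_one

end sat

section main

variable {A : Type*} [CommRing A] [IsDomain A] [ValuationRing A]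
variable {R : Type*} [CommRing R] [Algebra A R]
variable {Rt : Type*} [CommRing Rt] [Nontrivial Rt]

/-- **Abstract obstruction lemma** (report 190).  In the setting described at the top of the file:
there is an element of `Lam' = L_A(D' + eE)` which is regular along `E` (so lies in `L(D')`) and
reduces to `1`. -/
theorem exists_regular_of_lattice (red : R →+* Rt)
    (hredm : ∀ a ∈ maximalIdeal A, red (algebraMap A R a) = 0)
    (htf : ∀ (c : A) (x : R), c ≠ 0 → c • x = 0 → x = 0)
    (O : Subalgebra A R) (Ot : Subring Rt) (Pe : AddSubgroup Rt)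
    (hO : ∀ x ∈ O, red x ∈ Ot)
    (hOsat : ∀ (c : A) (x : R), c ≠ 0 → c • x ∈ O → x ∈ O)
    (hOlift : ∀ x : R, red x ∈ Ot → ∃ o ∈ O, ∃ c ∈ maximalIdeal A, ∃ r : R, x = o + c • r)
    (hOtPe : ∀ z ∈ Ot, z ∈ Pe)
    (m : ℕ) (hm : IsUnit (m : A))
    (Lam' Lam : Submodule A R) (hfg' : Lam'.FG) (hfg : Lam.FG)
    (hred : ∀ y ∈ Lam, red y = 0 → y ∈ maximalIdeal A • Lam)
    (hone : (1 : R) ∈ Lam)
    (hkerbar : ∀ y ∈ Lam, red y ∈ Ot → ∃ a : A, red y = red (algebraMap A R a))
    (u : R) (hu : u ∈ O) (hu1 : red u = 1)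
    (hmul : ∀ x ∈ Lam', x ^ m * u ∈ Lam)
    {N : Type*} [AddCommGroup N] [Module A N] [Module.Free A N] [Module.Finite A N]
    (J : Lam' →ₗ[A] N)
    (hJ0 : ∀ x : Lam', J x = 0 ↔ (x : R) ∈ O)
    (hJc : ∀ (x : Lam') (c : A), c ≠ 0 →
      (J x ∈ Ideal.span {c} • (⊤ : Submodule A N) ↔ ∃ o ∈ O, ∃ r : R, (x : R) = o + c • r))
    (hPe : ∀ x ∈ Lam', ∀ h ∈ O, ∀ (c : A) (ξ : R), c ≠ 0 → x = h + c • ξ → red ξ ∈ Pe)
    (hsurj : ∀ y ∈ Lam, red y ∈ Pe → ∃ t ∈ Lam', red t = red y) :
    ∃ x ∈ Lam', x ∈ O ∧ red x = 1 := by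
  classical
  have : Module.Finite A Lam' := Module.Finite.iff_fg.mpr hfg'
  have : Module.Free A Lam' := free_of_finite_of_torsionFree (fun c x hc hx =>
    Subtype.ext (htf c x hc (by simpa using congrArg Subtype.val hx)))
  -- a lift `x₀` of `1`
  obtain ⟨x₀, hx₀, hx₀1⟩ := hsurj 1 hone (by rw [map_one]; exact hOtPe _ Ot.one_mem)
  rw [map_one] at hx₀1
  -- `red` is constant on the coset `x₀ + 𝔪 Lam'`
  have hcoset : ∀ x : Lam', x - ⟨x₀, hx₀⟩ ∈ maximalIdeal A • (⊤ : Submodule A Lam') →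
      red (x : R) = 1 := by
    intro x hx
    have h0 : ∀ z : Lam', z ∈ maximalIdeal A • (⊤ : Submodule A Lam') → red (z : R) = 0 := by
      intro z hz
      refine Submodule.smul_induction_on hz (fun a ha w _ => ?_) (fun z w hz hw => ?_)
      · rw [Submodule.coe_smul, Algebra.smul_def, map_mul, hredm a ha, zero_mul]
      · rw [Submodule.coe_add, map_add, hz, hw, add_zero]
    have h1 := h0 _ hx
    rw [Submodule.coe_sub, map_sub, hx₀1, sub_eq_zero] at h1
    exact h1
  -- smallness criterion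
  have hJsmall : ∀ (x' : Lam') (c c' : A) (o r : R), c ≠ 0 → c' ∈ maximalIdeal A → o ∈ O →
      (x' : R) = o + (c * c') • r →
      J x' ∈ (Ideal.span {c} * maximalIdeal A) • (⊤ : Submodule A N) := by
    intro x' c c' o r hc hc' ho hx'
    by_cases hc'0 : c' = 0
    · rw [hc'0, mul_zero, zero_smul, add_zero] at hx'
      rw [(hJ0 x').mpr (hx' ▸ ho)]
      exact zero_mem _
    · have h1 : J x' ∈ Ideal.span {c * c'} • (⊤ : Submodule A N) :=
        (hJc x' (c * c') (mul_ne_zero hc hc'0)).mpr ⟨o, ho, r, hx'⟩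
      refine Submodule.smul_mono_left ?_ h1
      rw [Ideal.span_singleton_le_iff_mem]
      exact Ideal.mul_mem_mul (Ideal.mem_span_singleton_self c) hc'
  obtain ⟨x, hx, hx'⟩ := exists_attained (A := A) (Module.finrank A Lam') Lam' N rfl J ⟨x₀, hx₀⟩
  rcases hx' with h0 | ⟨c, hc0, hc1, hc2⟩
  · exact ⟨x, x.2, (hJ0 x).mp h0, hcoset x hx⟩
  exfalso
  by_cases hcu : IsUnit c
  · -- `c` a unit: `x₀` itself has smaller polar part
    obtain ⟨o, ho, c₁, hc₁, r, hxo⟩ := hOlift x₀ (by rw [hx₀1]; exact Ot.one_mem)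
    obtain ⟨w, rfl⟩ := hcu
    refine hc2 ⟨x₀, hx₀⟩ (by simp) (hJsmall ⟨x₀, hx₀⟩ (w : A) ((↑w⁻¹ : A) * c₁) o r hc0
      (Ideal.mul_mem_left _ _ hc₁) ho ?_)
    rw [← mul_assoc, Units.mul_inv, one_mul]
    exact hxo
  have hcm : c ∈ maximalIdeal A := (mem_maximalIdeal _).mpr hcu
  -- decompose `x = h + c ξ`
  obtain ⟨h, hh, ξ, hxh⟩ := (hJc x c hc0).mp hc1
  have hredx : red (x : R) = 1 := hcoset x hx
  have hredh : red h = 1 := by
    have := hredx
    rw [hxh, map_add, Algebra.smul_def, map_mul, hredm c hcm, zero_mul, add_zero] at this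
    exact this
  -- `y = x^m u`
  set G : R := ∑ i ∈ Finset.range m, (x : R) ^ i * h ^ (m - 1 - i) with hG
  have hGmul : G * ((x : R) - h) = (x : R) ^ m - h ^ m := geom_sum₂_mul _ _ _
  have hxmh : (x : R) - h = c • ξ := by rw [hxh]; abel
  have hy : (x : R) ^ m * u = h ^ m * u + c • (ξ * G * u) := by
    have : (x : R) ^ m = h ^ m + G * (c • ξ) := by rw [← hxmh, hGmul]; abel
    rw [this, Algebra.smul_def, Algebra.smul_def]; ring
  have hredG : red G = (m : Rt) := by
    rw [hG, map_sum]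
    simp [map_mul, map_pow, hredx, hredh]
  obtain ⟨a, y₁, hy₁, hya⟩ := exists_eq_const_add_smul red hredm htf O Ot hO hOsat Lam hfg hred hone
    hkerbar (hmul x x.2) hc0 (mul_mem (pow_mem hh m) hu) hy
  -- `y₁ - ξ G u ∈ O`
  have h1 : c • (y₁ - ξ * G * u) = h ^ m * u - algebraMap A R a := by
    have : c • y₁ = (x : R) ^ m * u - algebraMap A R a := by rw [hya]; abel
    rw [smul_sub, this, hy]; abel
  have h2 : y₁ - ξ * G * u ∈ O := by
    apply hOsat c _ hc0
    rw [h1]
    exact sub_mem (mul_mem (pow_mem hh m) hu) (O.algebraMap_mem a)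
  have h3 : red y₁ - (m : Rt) * red ξ ∈ Ot := by
    have := hO _ h2
    rw [map_sub, map_mul, map_mul, hredG, hu1, mul_one, mul_comm] at this
    exact this
  have hξPe : red ξ ∈ Pe := hPe x x.2 h hh c ξ hc0 hxh
  have h4 : red y₁ ∈ Pe := by
    have h5 : red y₁ = (red y₁ - (m : Rt) * red ξ) + m • red ξ := by
      rw [nsmul_eq_mul]; abel
    rw [h5]
    exact add_mem (hOtPe _ h3) (Pe.nsmul_mem hξPe m)
  obtain ⟨t₀, ht₀, hredt₀⟩ := hsurj y₁ hy₁ h4
  obtain ⟨minv, hminv⟩ := hm.exists_right_inv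
  -- the improved element
  let x' : Lam' := x - (c * minv) • ⟨t₀, ht₀⟩
  have hx'coset : x' - ⟨x₀, hx₀⟩ ∈ maximalIdeal A • (⊤ : Submodule A Lam') := by
    have : x' - ⟨x₀, hx₀⟩ = (x - ⟨x₀, hx₀⟩) - (c * minv) • ⟨t₀, ht₀⟩ := by
      simp only [x']; abel
    rw [this]
    exact sub_mem hx (Submodule.smul_mem_smul (Ideal.mul_mem_right _ _ hcm) Submodule.mem_top)
  have hredminv : red (algebraMap A R minv) * (m : Rt) = 1 := by
    have : (m : Rt) = red (algebraMap A R (m : A)) := by simp
    rw [this, ← map_mul, ← map_mul, mul_comm, hminv, map_one, map_one]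
  have h6 : red (ξ - minv • t₀) ∈ Ot := by
    have h7 : red (ξ - minv • t₀) =
        -(red (algebraMap A R minv) * (red y₁ - (m : Rt) * red ξ)) := by
      rw [map_sub, Algebra.smul_def, map_mul, hredt₀, mul_sub, ← mul_assoc, hredminv, one_mul]
      abel
    rw [h7]
    exact neg_mem (mul_mem (hO _ (O.algebraMap_mem minv)) h3)
  obtain ⟨o', ho', c', hc', r', hor⟩ := hOlift _ h6
  refine hc2 x' hx'coset (hJsmall x' c c' (h + c • o') r' hc0 hc' (add_mem hh (O.smul_mem ho' c)) ?_)
  show (x : R) - (c * minv) • t₀ = h + c • o' + (c * c') • r'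
  have : (c * minv) • t₀ = c • (minv • t₀) := mul_smul _ _ _
  rw [this, hxh, mul_smul]
  have e1 : h + c • ξ - c • minv • t₀ = h + c • (ξ - minv • t₀) := by rw [smul_sub]; abel
  rw [e1, hor, smul_add, add_assoc]

end main

end Fermat.Agent.GJ.Lattice
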