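/-
GATE-J / J1 LAT-core (helper39): the obstruction lemma in its concrete `q`-EXPANSION form
(`R = A((q))`, polar part = the coefficients of `q^n`, `n < 0`), deduced from the abstract
`exists_regular_of_lattice`.  All hypotheses are stated coefficientwise (Mathlib only).

CAUTION (board 1152): this form applies when the support of `D'` misses the residue disc of the
pole place (equivalently: `u` is holomorphic at `q = 0`); otherwise use the abstract form with
polar parts along a generic fibre.
-/
import Mathlib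
import Fermat.Prelude.Def_ModularCurve_LaurentCoeff
import Fermat.Agent.GJ.Lattice.Obstruction

set_option autoImplicit false

open IsLocalRing

noncomputable section

namespace Fermat.Agent.GJ.Lattice

section hol

variable (B : Type*) [CommRing B]

/-- Laurent series without polar part, as a subring. -/
def holSubring : Subring (LaurentSeries B) where
  carrier := {x | ∀ n : ℤ, n < 0 → x.coeff n = 0}
  mul_mem' := by
    intro x y hx hy n hn
    rw [HahnSeries.coeff_mul]
    refine Finset.sum_eq_zero fun ij hij => ?_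
    rw [Finset.mem_antidiagonal] at hij
    by_cases h1 : ij.1 < 0
    · rw [hx _ h1, zero_mul]
    · have h2 : ij.2 < 0 := by omega
      rw [hy _ h2, mul_zero]
  one_mem' := by
    intro n hn
    rw [HahnSeries.coeff_one, if_neg hn.ne]
  add_mem' := by
    intro x y hx hy n hn
    rw [HahnSeries.coeff_add, hx n hn, hy n hn, add_zero]
  zero_mem' := by
    intro n _
    rfl
  neg_mem' := by
    intro x hx n hn
    rw [HahnSeries.coeff_neg, hx n hn, neg_zero]

theorem mem_holSubring {x : LaurentSeries B} :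
    x ∈ holSubring B ↔ ∀ n : ℤ, n < 0 → x.coeff n = 0 := Iff.rfl

/-- the same, as a subalgebra for the coefficientwise algebra structure -/
def holSubalgebra : @Subalgebra B (LaurentSeries B) _ _ HahnSeries.instAlgebra :=
  letI : Algebra B (LaurentSeries B) := HahnSeries.instAlgebra
  { holSubring B with
    algebraMap_mem' := by
      intro a n hn
      show (HahnSeries.C a).coeff n = 0
      rw [HahnSeries.C_apply, HahnSeries.coeff_single_of_ne hn.ne] }

theorem mem_holSubalgebra {x : LaurentSeries B} :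
    x ∈ holSubalgebra B ↔ ∀ n : ℤ, n < 0 → x.coeff n = 0 := Iff.rfl

/-- pole order at most `e` -/
def poleLE (e : ℕ) : AddSubgroup (LaurentSeries B) where
  carrier := {x | ∀ n : ℤ, n < -(e : ℤ) → x.coeff n = 0}
  add_mem' := by
    intro x y hx hy n hn
    rw [HahnSeries.coeff_add, hx n hn, hy n hn, add_zero]
  zero_mem' := by
    intro n _
    rfl
  neg_mem' := by
    intro x hx n hn
    rw [HahnSeries.coeff_neg, hx n hn, neg_zero]

theorem mem_poleLE {e : ℕ} {x : LaurentSeries B} :
    x ∈ poleLE B e ↔ ∀ n : ℤ, n < -(e : ℤ) → x.coeff n = 0 := Iff.rfl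

variable {B}

/-- a finite polar part with prescribed coefficients -/
def sumSingles (e : ℕ) (f : Fin e → B) : LaurentSeries B :=
  ∑ i : Fin e, HahnSeries.single (-((i : ℤ) + 1)) (f i)

theorem coeff_sumSingles_self (e : ℕ) (f : Fin e → B) (j : Fin e) :
    (sumSingles e f).coeff (-((j : ℤ) + 1)) = f j := by
  classical
  rw [sumSingles, HahnSeries.coeff_sum, Finset.sum_eq_single j]
  · rw [HahnSeries.coeff_single_same]
  · intro i _ hij
    rw [HahnSeries.coeff_single_of_ne]
    intro h
    apply hij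
    apply Fin.ext
    omega
  · intro h; exact absurd (Finset.mem_univ _) h

theorem coeff_sumSingles_of_nonneg (e : ℕ) (f : Fin e → B) {n : ℤ} (hn : 0 ≤ n) :
    (sumSingles e f).coeff n = 0 := by
  rw [sumSingles, HahnSeries.coeff_sum]
  refine Finset.sum_eq_zero fun i _ => ?_
  rw [HahnSeries.coeff_single_of_ne]
  omega

theorem coeff_sumSingles_of_lt (e : ℕ) (f : Fin e → B) {n : ℤ} (hn : n < -(e : ℤ)) :
    (sumSingles e f).coeff n = 0 := by
  rw [sumSingles, HahnSeries.coeff_sum]
  refine Finset.sum_eq_zero fun i _ => ?_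
  rw [HahnSeries.coeff_single_of_ne]
  have := i.2
  omega

theorem int_trichotomy (e : ℕ) (n : ℤ) :
    0 ≤ n ∨ n < -(e : ℤ) ∨ ∃ j : Fin e, n = -((j : ℤ) + 1) := by
  by_cases h1 : 0 ≤ n
  · exact Or.inl h1
  by_cases h2 : n < -(e : ℤ)
  · exact Or.inr (Or.inl h2)
  refine Or.inr (Or.inr ⟨⟨(-n - 1).toNat, by omega⟩, ?_⟩)
  show n = -(((-n - 1).toNat : ℤ) + 1)
  omega

/-- a series whose polar coefficients below `-e` vanish and whose other polar coefficients are
divisible by `c` is holomorphic modulo `c` -/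
theorem exists_hol_add_smul (e : ℕ) (x : LaurentSeries B) (c : B)
    (hpole : ∀ n : ℤ, n < -(e : ℤ) → x.coeff n = 0)
    (hdvd : ∀ j : Fin e, c ∣ x.coeff (-((j : ℤ) + 1))) :
    ∃ o ∈ holSubring B, ∃ r : LaurentSeries B, x = o + c • r := by
  choose q hq using hdvd
  refine ⟨x - c • sumSingles e q, ?_, sumSingles e q, by abel⟩
  intro n hn
  rw [HahnSeries.coeff_sub, HahnSeries.coeff_smul, smul_eq_mul]
  rcases int_trichotomy e n with h | h | ⟨j, rfl⟩
  · omega
  · rw [hpole n h, coeff_sumSingles_of_lt e q h, mul_zero, sub_zero]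
  · rw [coeff_sumSingles_self, ← hq j, sub_self]

end hol

section pi

variable {A : Type*} [CommRing A]

theorem mem_span_singleton_smul_top_pi {e : ℕ} (c : A) (z : Fin e → A) :
    z ∈ Ideal.span {c} • (⊤ : Submodule A (Fin e → A)) ↔ ∀ i, c ∣ z i := by
  constructor
  · intro hz i
    have h1 : (LinearMap.proj i : (Fin e → A) →ₗ[A] A) z ∈ Ideal.span {c} :=
      mem_of_mem_smul_top_self _ (map_mem_smul_top _ (LinearMap.proj i) hz)
    exact Ideal.mem_span_singleton.mp h1
  · intro h
    choose q hq using h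
    have : z = c • q := by
      funext i
      rw [Pi.smul_apply, smul_eq_mul, hq i]
    rw [this]
    exact Submodule.smul_mem_smul (Ideal.mem_span_singleton_self c) Submodule.mem_top

end pi

section laurent

variable {A : Type*} [CommRing A] [IsDomain A] [ValuationRing A]

/-- finitely many elements of the maximal ideal of a valuation ring have a common divisor in the
maximal ideal -/
theorem exists_mem_maximalIdeal_dvd_all {e : ℕ} (p : Fin e → A)
    (hp : ∀ i, p i ∈ maximalIdeal A) : ∃ c ∈ maximalIdeal A, ∀ i, c ∣ p i := by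
  by_cases he : Nonempty (Fin e)
  · obtain ⟨i₀, -, h⟩ := exists_dvd_all Finset.univ (Finset.univ_nonempty_iff.mpr he) p
    exact ⟨p i₀, hp i₀, fun i => h i (Finset.mem_univ _)⟩
  · exact ⟨0, zero_mem _, fun i => absurd ⟨i⟩ he⟩

/-- **Obstruction lemma, `q`-expansion form** (report 190).
`Lam' = L_A(D' + e P∞)`, `Lam = L_A(m e P∞)` (integral `q`-expansions), `div u = m D'`,
`u ≡ 1 mod 𝔪` holomorphic at `q = 0`.  Then `L(D')` contains an element reducing to `1`. -/
theorem exists_holomorphic_unit (m : ℕ) (hm : IsUnit (m : A))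
    (Lam' Lam : Submodule A (LaurentSeries A)) (u : LaurentSeries A)
    (hfg' : Lam'.FG) (hfg : Lam.FG)
    (hred : ∀ y ∈ Lam, (∀ n, y.coeff n ∈ maximalIdeal A) → y ∈ maximalIdeal A • Lam)
    (hone : (1 : LaurentSeries A) ∈ Lam)
    (hkerbar : ∀ y ∈ Lam, (∀ n : ℤ, n < 0 → y.coeff n ∈ maximalIdeal A) →
      ∀ n : ℤ, 0 < n → y.coeff n ∈ maximalIdeal A)
    (hu : ∀ n : ℤ, n < 0 → u.coeff n = 0)
    (hu1 : u.coeff 0 - 1 ∈ maximalIdeal A ∧ ∀ n : ℤ, 0 < n → u.coeff n ∈ maximalIdeal A)
    (hmul : ∀ x ∈ Lam', x ^ m * u ∈ Lam)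
    (e : ℕ) (hpole' : ∀ x ∈ Lam', ∀ n : ℤ, n < -(e : ℤ) → x.coeff n = 0)
    (hsurj : ∀ y ∈ Lam, (∀ n : ℤ, n < -(e : ℤ) → y.coeff n ∈ maximalIdeal A) →
      ∃ t ∈ Lam', ∀ n, t.coeff n - y.coeff n ∈ maximalIdeal A) :
    ∃ x ∈ Lam', (∀ n : ℤ, n < 0 → x.coeff n = 0) ∧ x.coeff 0 - 1 ∈ maximalIdeal A ∧
      ∀ n : ℤ, 0 < n → x.coeff n ∈ maximalIdeal A := by
  classical
  let _ : Algebra A (LaurentSeries A) := HahnSeries.instAlgebra
  set red : LaurentSeries A →+* LaurentSeries (ResidueField A) :=
    ModularCurve.coeffMap (IsLocalRing.residue A) with hreddef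
  have hrc : ∀ (x : LaurentSeries A) (n : ℤ), (red x).coeff n = residue A (x.coeff n) :=
    fun _ _ => rfl
  have hred0 : ∀ x : LaurentSeries A, red x = 0 ↔ ∀ n, x.coeff n ∈ maximalIdeal A := by
    intro x
    constructor
    · intro h n
      rw [← residue_eq_zero_iff, ← hrc, h]; rfl
    · intro h
      ext n
      rw [hrc, (residue_eq_zero_iff _).mpr (h n)]; rfl
  have hredeq : ∀ x y : LaurentSeries A, red x = red y ↔
      ∀ n, x.coeff n - y.coeff n ∈ maximalIdeal A := by
    intro x y
    rw [← sub_eq_zero, ← map_sub, hred0]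
    simp only [HahnSeries.coeff_sub]
  have hred1 : ∀ x : LaurentSeries A, red x = 1 ↔
      ((∀ n : ℤ, n < 0 → x.coeff n ∈ maximalIdeal A) ∧ x.coeff 0 - 1 ∈ maximalIdeal A ∧
        ∀ n : ℤ, 0 < n → x.coeff n ∈ maximalIdeal A) := by
    intro x
    rw [← map_one red, hredeq]
    constructor
    · intro h
      refine ⟨fun n hn => ?_, ?_, fun n hn => ?_⟩
      · have := h n
        rwa [HahnSeries.coeff_one, if_neg hn.ne, sub_zero] at this
      · have := h 0
        rwa [HahnSeries.coeff_one, if_pos rfl] at this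
      · have := h n
        rwa [HahnSeries.coeff_one, if_neg hn.ne', sub_zero] at this
    · rintro ⟨h1, h2, h3⟩ n
      rcases lt_trichotomy n 0 with hn | rfl | hn
      · rw [HahnSeries.coeff_one, if_neg hn.ne, sub_zero]; exact h1 n hn
      · rw [HahnSeries.coeff_one, if_pos rfl]; exact h2
      · rw [HahnSeries.coeff_one, if_neg hn.ne', sub_zero]; exact h3 n hn
  have halg : ∀ a : A, algebraMap A (LaurentSeries A) a = HahnSeries.single 0 a := fun a => rfl
  -- the polar-part map
  let J : Lam' →ₗ[A] (Fin e → A) :=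
    { toFun := fun x i => (x : LaurentSeries A).coeff (-((i : ℤ) + 1))
      map_add' := fun x y => by
        funext i
        simp
      map_smul' := fun r x => by
        funext i
        simp }
  have hJapp : ∀ (x : Lam') (i : Fin e), J x i = (x : LaurentSeries A).coeff (-((i : ℤ) + 1)) :=
    fun _ _ => rfl
  suffices key : ∃ x ∈ Lam', x ∈ holSubalgebra A ∧ red x = 1 by
    obtain ⟨x, hx, hxO, hx1⟩ := key
    exact ⟨x, hx, hxO, ((hred1 x).mp hx1).2⟩
  refine @exists_regular_of_lattice A _ _ _ (LaurentSeries A) _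
    HahnSeries.instAlgebra (LaurentSeries (ResidueField A)) _ _ red ?_ ?_ (holSubalgebra A)
    (holSubring (ResidueField A)) (poleLE (ResidueField A) e) ?_ ?_ ?_ ?_ m hm Lam' Lam hfg' hfg
    ?_ hone ?_ u hu ?_ hmul (Fin e → A) _ _ _ _ J ?_ ?_ ?_ ?_
  · -- hredm
    intro a ha
    rw [hred0]
    intro n
    rw [halg, HahnSeries.coeff_single]
    split_ifs
    · exact ha
    · exact zero_mem _
  · -- htf
    intro c x hc hcx
    ext n
    have h1 : (c • x).coeff n = 0 := by rw [hcx]; rfl
    rw [HahnSeries.coeff_smul, smul_eq_mul] at h1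
    exact (mul_eq_zero.mp h1).resolve_left hc
  · -- hO
    intro x hx n hn
    rw [hrc, hx n hn, map_zero]
  · -- hOsat
    intro c x hc hcx n hn
    have h1 := hcx n hn
    rw [HahnSeries.coeff_smul, smul_eq_mul] at h1
    exact (mul_eq_zero.mp h1).resolve_left hc
  · -- hOlift
    intro x hx
    have hpole : ∀ n : ℤ, n < -(((-x.order).toNat : ℕ) : ℤ) → x.coeff n = 0 := by
      intro n hn
      apply HahnSeries.coeff_eq_zero_of_lt_order
      omega
    obtain ⟨c, hc, hdvd⟩ := exists_mem_maximalIdeal_dvd_all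
      (fun j : Fin (-x.order).toNat => x.coeff (-((j : ℤ) + 1))) (fun j => by
        rw [← residue_eq_zero_iff, ← hrc]
        exact hx _ (by omega))
    obtain ⟨o, ho, r, hor⟩ := exists_hol_add_smul _ x c hpole hdvd
    exact ⟨o, ho, c, hc, r, hor⟩
  · -- hOtPe
    intro z hz n hn
    exact hz n (by omega)
  · -- hred
    intro y hy hy0
    exact hred y hy ((hred0 y).mp hy0)
  · -- hkerbar
    intro y hy hyO
    refine ⟨y.coeff 0, ?_⟩
    have hpol : ∀ n : ℤ, n < 0 → y.coeff n ∈ maximalIdeal A := by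
      intro n hn
      rw [← residue_eq_zero_iff, ← hrc]
      exact hyO n hn
    rw [hredeq]
    intro n
    rw [halg, HahnSeries.coeff_single]
    rcases lt_trichotomy n 0 with hn | rfl | hn
    · rw [if_neg hn.ne, sub_zero]; exact hpol n hn
    · rw [if_pos rfl, sub_self]; exact zero_mem _
    · rw [if_neg hn.ne', sub_zero]; exact hkerbar y hy hpol n hn
  · -- hu1
    rw [hred1]
    exact ⟨fun n hn => by rw [hu n hn]; exact zero_mem _, hu1.1, hu1.2⟩
  · -- hJ0
    intro x
    constructor
    · intro h n hn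
      rcases int_trichotomy e n with h1 | h1 | ⟨j, rfl⟩
      · omega
      · exact hpole' x x.2 n h1
      · rw [← hJapp, h]; rfl
    · intro h
      funext i
      rw [hJapp]
      exact h _ (by omega)
  · -- hJc
    intro x c hc
    rw [mem_span_singleton_smul_top_pi]
    constructor
    · intro h
      obtain ⟨o, ho, r, hor⟩ := exists_hol_add_smul e (x : LaurentSeries A) c (hpole' x x.2) h
      exact ⟨o, ho, r, hor⟩
    · rintro ⟨o, ho, r, hor⟩ i
      rw [hJapp, hor, HahnSeries.coeff_add, HahnSeries.coeff_smul, smul_eq_mul,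
        ho _ (by omega), zero_add]
      exact dvd_mul_right _ _
  · -- hPe
    intro x hx h hh c ξ hc hxh n hn
    have h1 := hpole' x hx n hn
    rw [hxh, HahnSeries.coeff_add, HahnSeries.coeff_smul, smul_eq_mul, hh n (by omega),
      zero_add] at h1
    rw [hrc, (mul_eq_zero.mp h1).resolve_left hc, map_zero]
  · -- hsurj
    intro y hy hyPe
    obtain ⟨t, ht, hty⟩ := hsurj y hy (fun n hn => by
      rw [← residue_eq_zero_iff, ← hrc]
      exact hyPe n hn)
    exact ⟨t, ht, (hredeq t y).mpr hty⟩

end laurent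

end Fermat.Agent.GJ.Lattice

end
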